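import Fermat.Statements.S22
import Fermat.Agent.MFLib.IntStruct
import Fermat.Prelude.Thm_CuspForm_mem_intLattice_of_mem_heckeAlgebra
import Fermat.Prelude.Thm_CuspForm_intLattice_fg

set_option autoImplicit false
open CuspForm

namespace Fermat.Agent.S22

open Fermat.Agent.MFLib in
lemma cusp_subsingleton (N : ℕ) [NeZero N] (k : ℤ) (hk : k ≤ 0) :
    Subsingleton (CuspForm (CongruenceSubgroup.Gamma0 N) k) := by
  refine ⟨fun f g => ?_⟩
  have key : ∀ f : CuspForm (CongruenceSubgroup.Gamma0 N) k, (f : UpperHalfPlane → ℂ) = 0 := by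
    intro f
    obtain ⟨n, hn, g, hg, hfg⟩ :=
      (IsCF.of_class (Γ := CongruenceSubgroup.Gamma0 N) (k := k) f).exists_pow_eq
    have hneg : (n : ℤ) * k - 12 < 0 := by nlinarith
    have h0 : hg.toForm = 0 := ModularForm.isZero_of_neg_weight hneg hg.toForm
    have h1 : g = 0 := by
      funext τ
      have := DFunLike.congr_fun h0 τ
      exact this
    rw [h1, mul_zero] at hfg
    ext τ
    have := congrFun hfg τ
    simpa [hn.ne'] using this
  apply DFunLike.coe_injective
  rw [key f, key g]

/-- restriction of the Hecke algebra to the integral lattice -/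
noncomputable def restrictHom (N : ℕ) [NeZero N] (k : ℤ) (hk : 1 ≤ k) (S : Set ℕ) :
    ↥(CuspForm.heckeAlgebra N k S) →ₗ[ℤ] Module.End ℤ ↥(intLattice N k) where
  toFun t := LinearMap.restrict (t.1.restrictScalars ℤ)
    (fun _f hf => mem_intLattice_of_mem_heckeAlgebra hk t.2 hf)
  map_add' _ _ := LinearMap.ext fun _ => Subtype.ext rfl
  map_smul' _ _ := LinearMap.ext fun _ => Subtype.ext rfl

theorem result (N : ℕ) [NeZero N] (k : ℤ) (S : Set ℕ) :
    Module.Finite ℤ (CuspForm.heckeAlgebra N k S) := by
  rcases lt_or_ge k 1 with hk | hk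
  · have h1 : Subsingleton (CuspForm (CongruenceSubgroup.Gamma0 N) k) :=
      cusp_subsingleton N k (by omega)
    have h2 : Subsingleton (Module.End ℂ (CuspForm (CongruenceSubgroup.Gamma0 N) k)) :=
      ⟨fun a b => LinearMap.ext fun x => Subsingleton.elim _ _⟩
    have h3 : Subsingleton ↥(CuspForm.heckeAlgebra N k S) := inferInstance
    infer_instance
  · have hfin : Module.Finite ℤ ↥(intLattice N k) := Module.Finite.iff_fg.mpr (intLattice_fg N k)
    have htf : IsAddTorsionFree (CuspForm (CongruenceSubgroup.Gamma0 N) k) :=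
      .of_isTorsionFree ℂ _
    have hfree : Module.Free ℤ ↥(intLattice N k) := Module.free_of_finite_type_torsion_free'
    refine Module.Finite.of_injective (restrictHom N k hk S) ?_
    intro a b hab
    apply Subtype.ext
    have h1 : ∀ f ∈ (intLattice N k : Set (CuspForm (CongruenceSubgroup.Gamma0 N) k)),
        a.1 f = b.1 f := by
      intro f hf
      have := LinearMap.congr_fun hab ⟨f, hf⟩
      exact congrArg Subtype.val this
    have h2 : (⊤ : Submodule ℂ (CuspForm (CongruenceSubgroup.Gamma0 N) k)) ≤
        LinearMap.eqLocus a.1 b.1 := by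
      rw [← Fermat.Agent.MFLib.hasIntegralStructure N k, Submodule.span_le]
      exact h1
    exact LinearMap.ext fun f => h2 (Submodule.mem_top)

end Fermat.Agent.S22
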