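import Fermat.Statements.S20
import Fermat.Agent.Dim.Solve
import Fermat.Agent.Cosets.Index

set_option autoImplicit false
open CuspForm

namespace Fermat.Agent.S20

open Fermat.Agent.Dim Fermat.Agent.MFLib

theorem result (N : ℕ) [NeZero N] :
    (Module.finrank ℂ (CuspForm (CongruenceSubgroup.Gamma0 N) 2) : ℚ) = ModularCurve.genusFormula N := by
  obtain ⟨Fr⟩ := exists_frame_Gamma0 N
  have h1 := Fr.genus_formula
  have e : CuspForm (CongruenceSubgroup.Gamma0 N) 2 ≃ₗ[ℂ] cf (CongruenceSubgroup.Gamma0 N) 2 :=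
    { toFun := fun f => ⟨f, IsCF.of_class f⟩
      map_add' := fun f g => rfl
      map_smul' := fun c f => rfl
      invFun := fun f => f.2.toCuspForm
      left_inv := fun f => rfl
      right_inv := fun f => rfl }
  rw [e.finrank_eq, h1, ModularCurve.genusFormula, ← Cosets.card_X, ← Cosets.card_fixed_S,
    ← Cosets.card_fixed_ST, ← Cosets.card_TOrbits]

end Fermat.Agent.S20
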