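import Fermat.Statements.S13
import Fermat.Agent.EC.NoTorsion
import Fermat.Agent.Places.Instances

set_option autoImplicit false
open WeierstrassCurve WeierstrassCurve.Affine WeierstrassCurve.Affine.Point
open CuspForm ModularFormClass UpperHalfPlane
open FreyPackage

namespace Fermat.Agent.S13

theorem result (P : FreyPackage) (hred : ¬ GaloisRepIsIrreducible (K := AlgebraicClosure ℚ) ℚ P.freyCurve P.p) : HasGaloisStableCofixedLine (K := AlgebraicClosure ℚ) ℚ P.freyCurve P.p := by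
  have hp0 : ((P.p : ℕ) : AlgebraicClosure ℚ) ≠ 0 := Nat.cast_ne_zero.mpr P.hp0
  have hp3 : 3 ≤ P.p := by have := P.hp5; omega
  have hntriv : Nontrivial (Submodule.torsionBy ℤ (P.freyCurve⁄(AlgebraicClosure ℚ)).Point P.p) := by
    obtain ⟨Q, hQ0, hQ⟩ := Fermat.Agent.EC.exists_torsion_point
      (W := P.freyCurve⁄(AlgebraicClosure ℚ)) (Fermat.Agent.EC.frey_Δ_ne' P) P.hp_odd hp3 hp0
    refine ⟨⟨Q, ?_⟩, 0, fun h => hQ0 (congrArg Subtype.val h)⟩
    rw [Submodule.mem_torsionBy_iff, natCast_zsmul]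
    exact hQ
  have hex : ∃ N : Submodule (ZMod P.p)
      (Submodule.torsionBy ℤ (P.freyCurve⁄(AlgebraicClosure ℚ)).Point P.p),
      IsGaloisStable ℚ N ∧ N ≠ ⊥ ∧ N ≠ ⊤ := by
    by_contra hcon
    push Not at hcon
    apply hred
    refine ⟨hntriv, fun N hN => ?_⟩
    by_cases h : N = ⊥
    · exact Or.inl h
    · exact Or.inr (hcon N hN h)
  obtain ⟨N, hstab, hN0, hN1⟩ := hex
  refine ⟨N, hstab, hN0, hN1, ?_⟩
  -- the subgroup of points
  let ι : (Submodule.torsionBy ℤ (P.freyCurve⁄(AlgebraicClosure ℚ)).Point P.p) →+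
    (P.freyCurve⁄(AlgebraicClosure ℚ)).Point := (Submodule.subtype _).toAddMonoidHom
  have hι : Function.Injective ι := Subtype.val_injective
  let N' : AddSubgroup (P.freyCurve⁄(AlgebraicClosure ℚ)).Point := N.toAddSubgroup.map ι
  set V := Fermat.Agent.EC.tors (P.freyCurve⁄(AlgebraicClosure ℚ)) P.p with hV
  have hmemV : ∀ Q, Q ∈ V ↔
      Q ∈ Submodule.torsionBy ℤ (P.freyCurve⁄(AlgebraicClosure ℚ)).Point P.p := by
    intro Q
    rw [hV, Fermat.Agent.EC.mem_tors, Submodule.mem_torsionBy_iff, natCast_zsmul]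
  have hNV : N' ≤ V := by
    rintro _ ⟨x, _, rfl⟩
    exact (hmemV _).mpr x.2
  have hfin := Fermat.Agent.EC.finite_torsion (W := P.freyCurve⁄(AlgebraicClosure ℚ))
    P.hp_odd hp0
  have hfinV : Finite V := hfin.1
  have hcardV : Nat.card V ≤ P.p ^ 2 := hfin.2
  have hN'0 : N' ≠ ⊥ := by
    intro h
    apply hN0
    rw [eq_bot_iff]
    intro x hx
    have h1 : ι x ∈ N' := ⟨x, hx, rfl⟩
    rw [h, AddSubgroup.mem_bot] at h1
    rw [Submodule.mem_bot]
    exact hι (by rw [h1, _root_.map_zero])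
  have hN'1 : N' ≠ V := by
    intro h
    apply hN1
    rw [eq_top_iff]
    intro x _
    have h1 : ι x ∈ N' := by rw [h]; exact (hmemV _).mpr x.2
    obtain ⟨y, hy, hyx⟩ := h1
    rw [← hι hyx]
    exact hy
  obtain ⟨hc1, hc2⟩ := Fermat.Agent.EC.card_line P.pp hNV (fun x hx => hx) hfinV hcardV hN'0 hN'1
  have hstab' : ∀ σ : AlgebraicClosure ℚ ≃ₐ[ℚ] AlgebraicClosure ℚ, ∀ x ∈ N', σ • x ∈ N' := by
    rintro σ _ ⟨x, hx, rfl⟩
    exact ⟨σ • x, hstab σ x hx, rfl⟩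
  rcases Fermat.Agent.EC.frey_line P hNV hc1 hc2 hstab' with h | h
  · exfalso
    obtain ⟨x, hx⟩ := AddSubgroup.ne_bot_iff_exists_ne_zero.mp hN'0
    exact Fermat.Agent.EC.frey_no_fixed_point P (Q := x.1) (fun h0 => hx (Subtype.ext h0))
      (hNV x.2) (fun σ => h σ x.1 x.2)
  · intro σ x
    obtain ⟨y, hy, hyx⟩ := h σ (ι x) ((hmemV _).mpr x.2)
    have : y = σ • x - x := hι hyx
    rw [← this]
    exact hy

end Fermat.Agent.S13
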