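import Fermat.Statements.S17
import Fermat.Agent.MW.Final
import Fermat.Agent.Spec.Main

set_option autoImplicit false
set_option synthInstance.maxHeartbeats 400000
open ModularCurve AlgebraicCurve
open ModularCurve ModularCurve.JZero

namespace Fermat.Agent.S17

theorem aux (N : ℕ) [NeZero N] : ∃ G : AddSubgroup (JZero N),
    (∀ x, x ∈ G ↔ ∀ σ : (AlgebraicClosure ℚ) ≃ₐ[ℚ] (AlgebraicClosure ℚ), σ • x = x) ∧
      AddGroup.FG G := by
  have h2N : 2 * N ≠ 0 := mul_ne_zero two_ne_zero (NeZero.ne N)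
  refine MW.mw_generic (N := N) (AlgebraicClosure ℚ) RedMod.exists_ιC.some
    (modularFunctionFieldBar N) (X0Genus.baseChange_eq (AlgebraicClosure ℚ) N)
    (arithmeticGalois (modularFunctionFieldFull N)) (fun σ x => rfl)
    (S := {ℓ | ℓ ∣ 2 * N})
    ((Finset.finite_toSet (Nat.divisors (2 * N))).subset fun ℓ hℓ => by
      simpa [h2N] using hℓ) (fun h => h2N (Nat.eq_zero_of_zero_dvd h)) ?_
  intro ℓ hℓ hℓS A hA σ hσ y hy
  haveI : Fact ℓ.Prime := ⟨hℓ⟩
  have hN : ¬ ℓ ∣ N := fun h => hℓS (h.mul_left 2)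
  have h2 : ¬ ℓ ∣ 2 := fun h => hℓS (h.mul_right N)
  obtain ⟨P, _, f, Φ, Φi, -, -, -, -, h5, -, h7⟩ := Spec.specialization_JZero hA hN
  have h8 : (arithmeticGalois (modularFunctionFieldFull N) σ) • y - y = 0 := by
    apply h7 2 h2
    · rw [nsmul_sub, sub_eq_zero, ← hy]
      exact ((DistribSMul.toAddMonoidHom (JZero N)
        (arithmeticGalois (modularFunctionFieldFull N) σ)).map_nsmul _ _).symm.trans hy |>.trans
          hy.symm
    · rw [map_sub, sub_eq_zero]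
      exact h5 σ hσ y
  exact sub_eq_zero.1 h8

theorem result (N : ℕ) [NeZero N] (hN : N.Prime) (hN5 : 5 ≤ N) :
    AddGroup.FG ↥(FixedPoints.addSubgroup ((AlgebraicClosure ℚ) ≃ₐ[ℚ] (AlgebraicClosure ℚ)) (JZero N)) := by
  obtain ⟨G, hG, hfg⟩ := aux N
  have h : FixedPoints.addSubgroup ((AlgebraicClosure ℚ) ≃ₐ[ℚ] (AlgebraicClosure ℚ)) (JZero N) =
      G := by
    ext x
    exact (hG x).symm
  rw [h]
  exact hfg

end Fermat.Agent.S17
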