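import Fermat.Statements.S02

set_option autoImplicit false
open FreyPackage

namespace Fermat.Agent.S02

theorem core (a b c : ℤ) (ha : a ≠ 0) (hb : b ≠ 0) (hc : c ≠ 0) (p : ℕ) (pp : p.Prime)
    (hp5 : 5 ≤ p) (H : a ^ p + b ^ p = c ^ p) (hgcd : gcd a b = 1) (hb2 : (2 : ℤ) ∣ b) :
    Nonempty FreyPackage := by
  have hodd : Odd p := pp.odd_of_ne_two (by omega)
  have ha2 : ¬ (2 : ℤ) ∣ a := by
    intro h
    have h2 : (2 : ℤ) ∣ gcd a b := dvd_gcd h hb2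
    rw [hgcd] at h2
    norm_num at h2
  have hbz : (b : ZMod 2) = 0 := (ZMod.intCast_zmod_eq_zero_iff_dvd b 2).2 (by exact_mod_cast hb2)
  have hmod : a % 4 = 1 ∨ a % 4 = 3 := by omega
  rcases hmod with h1 | h3
  · -- negate
    refine ⟨⟨-a, -b, -c, neg_ne_zero.2 ha, neg_ne_zero.2 hb, neg_ne_zero.2 hc, p, pp, hp5, ?_, ?_, ?_, ?_⟩⟩
    · rw [hodd.neg_pow, hodd.neg_pow, hodd.neg_pow, ← H]; ring
    · rw [← hgcd]
      change ((Int.gcd (-a) (-b) : ℕ) : ℤ) = ((Int.gcd a b : ℕ) : ℤ)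
      simp
    · have : ((-a : ℤ) : ZMod 4) = ((3 : ℤ) : ZMod 4) := by
        rw [ZMod.intCast_eq_intCast_iff]
        change (-a) % 4 = 3 % 4
        omega
      simpa using this
    · simpa using hbz
  · refine ⟨⟨a, b, c, ha, hb, hc, p, pp, hp5, H, hgcd, ?_, hbz⟩⟩
    have : ((a : ℤ) : ZMod 4) = ((3 : ℤ) : ZMod 4) := by
      rw [ZMod.intCast_eq_intCast_iff]
      change a % 4 = 3 % 4
      omega
    simpa using this

theorem coprime_case (a b c : ℤ) (ha : a ≠ 0) (hb : b ≠ 0) (hc : c ≠ 0) (p : ℕ) (pp : p.Prime)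
    (hp5 : 5 ≤ p) (H : a ^ p + b ^ p = c ^ p) (hgcd : gcd a b = 1) :
    Nonempty FreyPackage := by
  have hodd : Odd p := pp.odd_of_ne_two (by omega)
  by_cases hb2 : (2 : ℤ) ∣ b
  · exact core a b c ha hb hc p pp hp5 H hgcd hb2
  by_cases ha2 : (2 : ℤ) ∣ a
  · exact core b a c hb ha hc p pp hp5 (by rw [← H]; ring) (by rw [gcd_comm]; exact hgcd) ha2
  · have hc2 : (2 : ℤ) ∣ c := by
      have hb' : Odd b := Int.not_even_iff_odd.1 (fun h => hb2 h.two_dvd)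
      have ha' : Odd a := Int.not_even_iff_odd.1 (fun h => ha2 h.two_dvd)
      have : Even (c ^ p) := by rw [← H]; exact ha'.pow.add_odd hb'.pow
      exact ((Int.even_pow.1 this).1).two_dvd
    refine core a (-c) (-b) ha (neg_ne_zero.2 hc) (neg_ne_zero.2 hb) p pp hp5 ?_ ?_ ?_
    · rw [hodd.neg_pow, hodd.neg_pow, ← H]; ring
    · have h1 : gcd a b = gcd a c := gcdab_eq_gcdac pp.pos H
      rw [hgcd] at h1
      rw [h1]
      change ((Int.gcd a (-c) : ℕ) : ℤ) = ((Int.gcd a c : ℕ) : ℤ)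
      simp
    · exact (dvd_neg).2 hc2

theorem result (a b c : ℤ) (ha : a ≠ 0) (hb : b ≠ 0) (hc : c ≠ 0) (p : ℕ) (pp : p.Prime) (hp5 : 5 ≤ p) (H : a ^ p + b ^ p = c ^ p) : Nonempty FreyPackage := by
  obtain ⟨a', ha'⟩ : gcd a b ∣ a := gcd_dvd_left a b
  obtain ⟨b', hb'⟩ : gcd a b ∣ b := gcd_dvd_right a b
  have hd0 : gcd a b ≠ 0 := by
    intro h
    exact ha ((gcd_eq_zero_iff a b).1 h).1
  have hdc : gcd a b ∣ c := by
    rw [← Int.pow_dvd_pow_iff pp.ne_zero, ← H]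
    exact dvd_add (pow_dvd_pow_of_dvd (gcd_dvd_left a b) p) (pow_dvd_pow_of_dvd (gcd_dvd_right a b) p)
  obtain ⟨c', hc'⟩ := hdc
  have H' : a' ^ p + b' ^ p = c' ^ p := by
    have h1 : (gcd a b) ^ p * (a' ^ p + b' ^ p) = (gcd a b) ^ p * c' ^ p := by
      rw [mul_add, ← mul_pow, ← mul_pow, ← mul_pow, ← ha', ← hb', ← hc', H]
    exact mul_left_cancel₀ (pow_ne_zero p hd0) h1
  have hgcd : gcd a' b' = 1 := by
    have h2 : gcd (gcd a b * a') (gcd a b * b') = normalize (gcd a b) * gcd a' b' := gcd_mul_left _ _ _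
    rw [← ha', ← hb', normalize_gcd] at h2
    have h3 : gcd a b * 1 = gcd a b * gcd a' b' := by rw [mul_one]; exact h2
    exact (mul_left_cancel₀ hd0 h3).symm
  refine coprime_case a' b' c' ?_ ?_ ?_ p pp hp5 H' hgcd
  · rintro rfl; exact ha (by rw [ha', mul_zero])
  · rintro rfl; exact hb (by rw [hb', mul_zero])
  · rintro rfl; exact hc (by rw [hc', mul_zero])

end Fermat.Agent.S02
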