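import Fermat.Statements.S05
import Fermat.Agent.EC.Frey

set_option autoImplicit false
open WeierstrassCurve WeierstrassCurve.Affine WeierstrassCurve.Affine.Point
open CuspForm ModularFormClass UpperHalfPlane
open FreyPackage

namespace Fermat.Agent.S05

theorem result (P : FreyPackage) {q : ℕ} (hq : q.Prime) (hq2 : q ≠ 2) (hqp : q ≠ P.p) : P.GaloisRepUnramifiedAt q := by
  intro A hA σ hσ x
  apply Subtype.ext
  change σ • x.1 = x.1
  have hx := x.2
  rw [Submodule.mem_torsionBy_iff] at hx
  refine Fermat.Agent.EC.frey_unramified P A.valuation hq hq2 hqp hA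
    (Fermat.Agent.EC.isInert_of_mem A hσ) ?_
  rw [← natCast_zsmul]
  exact hx

end Fermat.Agent.S05
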