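import Fermat.Statements.S14
import Fermat.Agent.S14x.Main

set_option autoImplicit false
open ExtCitation

namespace Fermat.Agent.S14

open Fermat.Agent Fermat.Agent.GalRep Fermat.Agent.CFT in
theorem cyc_eq {p : ℕ} [hp : Fact p.Prime] (σ : CFT.GQ) : (cycloExp p σ : ZMod p) = cyc p σ := by
  have h := χQ_eq_cyc (p := p) σ 1
  rw [mul_one] at h
  rw [← h, χQ_apply, mul_one]
  exact (coe_cycloChar p σ).symm

open Fermat.Agent Fermat.Agent.GalRep Fermat.Agent.CFT in
theorem main {p : ℕ} [hp : Fact p.Prime] (hp2 : p ≠ 2)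
    (V : Type) [AddCommGroup V] [Module (ZMod p) V]
    [DistribMulAction (AlgebraicClosure ℚ ≃ₐ[ℚ] AlgebraicClosure ℚ) V]
    [SMulCommClass (AlgebraicClosure ℚ ≃ₐ[ℚ] AlgebraicClosure ℚ) (ZMod p) V]
    (C : Submodule (ZMod p) V) (hadm : IsAdmissibleExtensionCts p V C) : SplitsGlobally C := by
  have hcardC := hadm.card_sub
  have hcardV := hadm.card_total
  haveI : Finite V := Nat.finite_of_card_ne_zero (by
    rw [hcardV]; exact pow_ne_zero _ hp.out.ne_zero)
  -- a generator of `C`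
  have hCbot : C ≠ ⊥ := by
    rintro rfl
    rw [Nat.card_unique] at hcardC
    exact hp.out.one_lt.ne hcardC
  have hCtop : C ≠ ⊤ := by
    rintro rfl
    have : Nat.card (⊤ : Submodule (ZMod p) V) = Nat.card V := Nat.card_congr (Equiv.Set.univ V)
    rw [this, hcardV] at hcardC
    have h1 : p ^ 2 = p ^ 1 := by rw [hcardC, pow_one]
    exact absurd (Nat.pow_right_injective hp.out.two_le h1) (by norm_num)
  obtain ⟨e, heC, he0⟩ := (Submodule.ne_bot_iff C).1 hCbot
  obtain ⟨v₀, hv₀⟩ : ∃ v₀, v₀ ∉ C := by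
    by_contra hcon
    push Not at hcon
    exact hCtop (eq_top_iff.2 fun x _ => hcon x)
  have hfinC : Module.finrank (ZMod p) C = 1 := by
    have h1 := Module.natCard_eq_pow_finrank (K := ZMod p) (V := C)
    rw [hcardC, Nat.card_zmod] at h1
    have h2 : p ^ 1 = p ^ Module.finrank (ZMod p) C := by rw [pow_one]; exact h1
    exact (Nat.pow_right_injective hp.out.two_le h2).symm
  have hspan : ∀ x ∈ C, ∃ a : ZMod p, x = a • e := by
    intro x hx
    obtain ⟨a, ha⟩ := (finrank_eq_one_iff_of_nonzero' (⟨e, heC⟩ : C)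
      (fun h => he0 (congrArg Subtype.val h))).1 hfinC ⟨x, hx⟩
    exact ⟨a, (congrArg Subtype.val ha).symm⟩
  have hinj : ∀ {a b : ZMod p}, a • e = b • e → a = b := by
    intro a b h
    rw [← sub_eq_zero, ← sub_smul, smul_eq_zero] at h
    exact sub_eq_zero.1 (h.resolve_right he0)
  have hdim : ∀ (W : Submodule (ZMod p) V) (w : V), w ∈ W → w ∉ C →
      (∀ x ∈ W, ∃ a : ZMod p, x = a • w) → IsCompl C W := by
    intro W w hw hwC hW
    constructor
    · rw [Submodule.disjoint_def]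
      intro x hx hxW
      obtain ⟨a, rfl⟩ := hW x hxW
      by_contra h0
      have ha : a ≠ 0 := fun h => h0 (by rw [h, zero_smul])
      apply hwC
      have := C.smul_mem a⁻¹ hx
      rwa [smul_smul, inv_mul_cancel₀ ha, one_smul] at this
    · rw [codisjoint_iff]
      have h1 : Module.finrank (ZMod p) V = 2 := by
        have h1 := Module.natCard_eq_pow_finrank (K := ZMod p) (V := V)
        rw [hcardV, Nat.card_zmod] at h1
        exact (Nat.pow_right_injective hp.out.two_le h1).symm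
      apply Submodule.eq_top_of_finrank_eq
      rw [h1]
      have h2 : C < C ⊔ W := by
        refine lt_of_le_of_ne le_sup_left fun h => hwC ?_
        rw [h]; exact (le_sup_right : W ≤ C ⊔ W) hw
      have h3 := Submodule.finrank_lt_finrank_of_lt h2
      have h4 := Submodule.finrank_le (C ⊔ W)
      omega
  have hact : ∀ (σ : CFT.GQ) (a : ZMod p) (x : V), σ • (a • x) = a • σ • x := fun σ a x =>
    smul_comm σ a x
  choose g hg using fun σ : CFT.GQ => hspan _ (hadm.cyclo_quot σ v₀)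
  have hgv : ∀ σ : CFT.GQ, σ • v₀ = cyc p σ • v₀ + g σ • e := by
    intro σ
    rw [← hg σ, cyc_eq]
    abel
  have huniq : ∀ {a b a' b' : ZMod p}, a • v₀ + b • e = a' • v₀ + b' • e → a = a' ∧ b = b' := by
    intro a b a' b' h
    have h1 : (a - a') • v₀ = (b' - b) • e := by
      rw [sub_smul, sub_smul, sub_eq_sub_iff_add_eq_add, h]
      abel
    have h2 : a = a' := by
      by_contra hne
      apply hv₀
      have h3 : (a - a')⁻¹ • ((a - a') • v₀) ∈ C := by
        rw [h1]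
        exact C.smul_mem _ (C.smul_mem _ heC)
      rwa [smul_smul, inv_mul_cancel₀ (sub_ne_zero.2 hne), one_smul] at h3
    subst h2
    exact ⟨rfl, hinj (add_left_cancel h)⟩
  have hfix : ∀ (σ : CFT.GQ) (a : ZMod p), σ • (a • e) = a • e := fun σ a =>
    hadm.fixed_sub σ _ (C.smul_mem a heC)
  have hgmul : ∀ σ τ : CFT.GQ, g (σ * τ) = cyc p τ * g σ + g τ := by
    intro σ τ
    have h1 : (σ * τ) • v₀ = σ • τ • v₀ := mul_smul σ τ v₀
    rw [hgv, hgv τ, smul_add, hact, hgv σ, hfix, smul_add, smul_smul, smul_smul, add_assoc,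
      ← add_smul] at h1
    exact (huniq h1).2
  -- the cocycle
  let c : CFT.GQ → ZMod p := fun σ => (cyc p σ)⁻¹ * g σ
  have hcyc0 : ∀ σ : CFT.GQ, cyc p σ ≠ 0 := fun σ => S14x.cyc_ne_zero σ
  have hc : ∀ σ τ : CFT.GQ, c (σ * τ) = c σ + (cyc p σ)⁻¹ * c τ := by
    intro σ τ
    change (cyc p (σ * τ))⁻¹ * g (σ * τ) = (cyc p σ)⁻¹ * g σ + (cyc p σ)⁻¹ * ((cyc p τ)⁻¹ * g τ)
    rw [hgmul, map_mul]
    have h1 := hcyc0 σ
    have h2 := hcyc0 τ
    field_simp
  have htriv : ∀ σ : CFT.GQ, (∀ x : V, σ • x = x) → c σ = 0 := by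
    intro σ h
    have h1 := hgv σ
    rw [h v₀] at h1
    have h2 : (1 : ZMod p) • v₀ + (0 : ZMod p) • e = cyc p σ • v₀ + g σ • e := by
      rw [one_smul, zero_smul, add_zero]; exact h1
    have h3 := (huniq h2).2
    change (cyc p σ)⁻¹ * g σ = 0
    rw [← h3, mul_zero]
  have hlc : ∃ F : IntermediateField ℚ Qb, FiniteDimensional ℚ F ∧
      ∀ σ : CFT.GQ, (∀ x ∈ F, σ x = x) → c σ = 0 := by
    have h1 := hadm.open_kernel
    obtain ⟨E, hE, hEle⟩ := (krullTopology_mem_nhds_one_iff ℚ Qb _).1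
      (h1.mem_nhds (show (1 : CFT.GQ) ∈ {σ : CFT.GQ | ∀ v : V, σ • v = v} from
        fun v => one_smul _ v))
    refine ⟨E, hE, fun σ hσ => htriv σ ?_⟩
    exact hEle ((IntermediateField.mem_fixingSubgroup_iff E σ).2 hσ)
  have hun : ∀ q : ℕ, q.Prime → q ≠ p → ∀ A : ValuationSubring Qb, A.LiesOverPrime q →
      ∀ σ ∈ A.inertiaSubgroupIn ℚ, c σ = 0 := fun q hq hqp A hA σ hσ =>
    htriv σ fun x => hadm.unramified_outside q hq hqp A hA σ hσ x
  have hloc : ∀ A : ValuationSubring Qb, A.LiesOverPrime p →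
      ∃ ξ : ZMod p, ∀ σ ∈ A.decompositionSubgroup ℚ, c σ = (cyc p σ)⁻¹ * ξ - ξ := by
    intro A hA
    obtain ⟨W, hW, hcompl⟩ := hadm.locally_split A hA
    -- decompose `v₀`
    obtain ⟨y, hy, w, hw, hyw⟩ := Submodule.mem_sup.1
      (show v₀ ∈ C ⊔ W by rw [hcompl.sup_eq_top]; trivial)
    obtain ⟨a, rfl⟩ := hspan y hy
    refine ⟨a, fun σ hσ => ?_⟩
    have hw' : w = v₀ - a • e := by rw [← hyw]; abel
    have h1 : σ • w - cyc p σ • w ∈ W := W.sub_mem (hW σ hσ w hw) (W.smul_mem _ hw)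
    have h2 : σ • w - cyc p σ • w = (g σ - a + cyc p σ * a) • e := by
      rw [hw', smul_sub, hgv, hfix, smul_sub, smul_smul, add_smul, sub_smul]
      abel
    rw [h2] at h1
    have h3 := (Submodule.disjoint_def.1 hcompl.disjoint) _ (C.smul_mem _ heC) h1
    have h4 : g σ - a + cyc p σ * a = 0 := (smul_eq_zero.1 h3).resolve_right he0
    change (cyc p σ)⁻¹ * g σ = _
    have h5 : g σ = a - cyc p σ * a := by linear_combination h4
    rw [h5, mul_sub, ← mul_assoc, inv_mul_cancel₀ (hcyc0 σ), one_mul]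
  obtain ⟨ξ, hξ⟩ := S14x.coboundary hp2 hc hlc hun hloc
  have hw0 : v₀ - ξ • e ∉ C := by
    intro h
    apply hv₀
    have := C.add_mem h (C.smul_mem ξ heC)
    rwa [sub_add_cancel] at this
  have hst : ∀ σ : CFT.GQ, σ • (v₀ - ξ • e) = cyc p σ • (v₀ - ξ • e) := by
    intro σ
    have h1 : g σ = ξ - cyc p σ * ξ := by
      have h2 : (cyc p σ)⁻¹ * g σ = (cyc p σ)⁻¹ * ξ - ξ := hξ σ
      have h3 := hcyc0 σ
      field_simp at h2
      linear_combination h2
    rw [smul_sub, hgv, hfix, h1, smul_sub, smul_smul, sub_smul]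
    abel
  refine ⟨Submodule.span (ZMod p) {v₀ - ξ • e}, ?_, ?_⟩
  · intro σ x hx
    obtain ⟨a, rfl⟩ := Submodule.mem_span_singleton.1 hx
    rw [hact, hst, smul_smul]
    exact Submodule.smul_mem _ _ (Submodule.mem_span_singleton_self _)
  · refine hdim _ _ (Submodule.mem_span_singleton_self _) hw0 fun x hx => ?_
    obtain ⟨a, ha⟩ := Submodule.mem_span_singleton.1 hx
    exact ⟨a, ha.symm⟩

theorem result {p : ℕ} [Fact p.Prime] (h3 : 3 ≤ p) :
    ExtCitation.ExtVanishingCts p := by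
  intro V _ _ _ _ C hadm
  exact main (by omega) V C hadm

end Fermat.Agent.S14
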