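import Fermat.Statements.S18
import Fermat.Agent.RedMod.Bar

set_option autoImplicit false
open ModularCurve

namespace Fermat.Agent.S18

section Helpers

set_option synthInstance.maxHeartbeats 400000

open AlgebraicCurve Fermat.Agent.RR Fermat.Agent.ModPoly

variable {N : ℕ} [NeZero N] {A : ValuationSubring (AlgebraicClosure ℚ)}

omit [NeZero N] in
theorem exists_root_of_ord {K F : Type*} [Field K] [IsAlgClosed K] [Field F] [Algebra K F]
    [FunField K F] {m : ℕ} (hm : m ≠ 0) {p q g : F} (hp : p ≠ 0) (hq : q ≠ 0) (hg : g ≠ 0)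
    (h : ∀ w : Place K F, (m : ℤ) * w.ord g = w.ord p - w.ord q) :
    ∃ γ : F, p = γ ^ m * q := by
  obtain ⟨c, hc⟩ := const_of_no_pole (K := K) (F := F) (f := p * (q * g ^ m)⁻¹) (by
      intro w
      rw [w.ord_mul hp (inv_ne_zero (mul_ne_zero hq (pow_ne_zero _ hg))), w.ord_inv,
        w.ord_mul hq (pow_ne_zero _ hg), Fermat.Agent.Curve.ord_pow]
      have := h w
      omega)
  obtain ⟨c', hc'⟩ := IsAlgClosed.exists_pow_nat_eq c (Nat.pos_of_ne_zero hm)
  refine ⟨algebraMap K F c' * g, ?_⟩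
  rw [← hc', map_pow] at hc
  rw [mul_pow, hc]
  field_simp

omit [NeZero N] in
/-- Principal divisors are differences of divisors of integral functions. -/
theorem exists_quot
    {r : Place (AlgebraicClosure ℚ) (modularFunctionFieldBar N) →
      Place (IsLocalRing.ResidueField A) (modularFunctionFieldFullC (IsLocalRing.ResidueField A) N)}
    (hr : IsPlaceReductionModL A N r)
    {D : Divisor (AlgebraicClosure ℚ) (modularFunctionFieldBar N)}
    (hD : D ∈ AddSubgroup.closure (integralPrincipalDivisors A (IsLocalRing.residue A) N)) :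
    ∃ (P Q : LaurentSeries A) (hP : coeffMap A.subtype P ∈ modularFunctionFieldBar N)
      (hQ : coeffMap A.subtype Q ∈ modularFunctionFieldBar N)
      (hP' : coeffMap (IsLocalRing.residue A) P ∈
        modularFunctionFieldFullC (IsLocalRing.ResidueField A) N)
      (hQ' : coeffMap (IsLocalRing.residue A) Q ∈
        modularFunctionFieldFullC (IsLocalRing.ResidueField A) N),
      coeffMap (IsLocalRing.residue A) P ≠ 0 ∧ coeffMap (IsLocalRing.residue A) Q ≠ 0 ∧
      (∀ v, D v = v.ord (⟨_, hP⟩ : modularFunctionFieldBar N) -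
        v.ord (⟨_, hQ⟩ : modularFunctionFieldBar N)) ∧
      (∀ w, Finsupp.mapDomain r D w =
        w.ord (⟨_, hP'⟩ : modularFunctionFieldFullC (IsLocalRing.ResidueField A) N) -
        w.ord (⟨_, hQ'⟩ : modularFunctionFieldFullC (IsLocalRing.ResidueField A) N)) := by
  have hinj : Function.Injective (coeffMap A.subtype) := coeffMap_injective A.subtype_injective
  have hne : ∀ {P : LaurentSeries A} (hP : coeffMap A.subtype P ∈ modularFunctionFieldBar N),
      coeffMap (IsLocalRing.residue A) P ≠ 0 →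
      (⟨_, hP⟩ : modularFunctionFieldBar N) ≠ 0 := by
    intro P hP h h0
    apply h
    have h1 : coeffMap A.subtype P = 0 := congrArg Subtype.val h0
    have h2 : P = 0 := hinj (by rw [h1, map_zero])
    rw [h2, map_zero]
  have hne' : ∀ {P : LaurentSeries A} (hP : coeffMap (IsLocalRing.residue A) P ∈
        modularFunctionFieldFullC (IsLocalRing.ResidueField A) N),
      coeffMap (IsLocalRing.residue A) P ≠ 0 →
      (⟨_, hP⟩ : modularFunctionFieldFullC (IsLocalRing.ResidueField A) N) ≠ 0 := by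
    intro P hP h h0
    exact h (congrArg Subtype.val h0)
  have hone : coeffMap A.subtype 1 ∈ modularFunctionFieldBar N := by
    rw [map_one]; exact one_mem _
  have hone' : coeffMap (IsLocalRing.residue A) 1 ∈
      modularFunctionFieldFullC (IsLocalRing.ResidueField A) N := by
    rw [map_one]; exact one_mem _
  have hone0 : coeffMap (IsLocalRing.residue A) 1 ≠ 0 := by
    rw [map_one]; exact one_ne_zero
  have h1 : (⟨_, hone⟩ : modularFunctionFieldBar N) = 1 := Subtype.ext (map_one _)
  have h1' : (⟨_, hone'⟩ : modularFunctionFieldFullC (IsLocalRing.ResidueField A) N) = 1 :=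
    Subtype.ext (map_one _)
  induction hD using AddSubgroup.closure_induction with
  | mem E hE =>
    obtain ⟨y, hy, hyk, hy0, hDy⟩ := hE
    refine ⟨y, 1, hy, hone, hyk, hone', hy0, hone0, ?_, ?_⟩
    · intro v
      rw [hDy v, h1, Place.ord_one, sub_zero]
    · intro w
      rw [hr.2 y hy hyk hy0 E hDy w, h1', Place.ord_one, sub_zero]
  | zero =>
    refine ⟨1, 1, hone, hone, hone', hone', hone0, hone0, ?_, ?_⟩
    · intro v; simp
    · intro w; simp
  | add E E' _ _ hE hE' =>
    obtain ⟨P, Q, hP, hQ, hP', hQ', hP0, hQ0, h2, h3⟩ := hE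
    obtain ⟨R, S, hR, hS, hR', hS', hR0, hS0, h4, h5⟩ := hE'
    have e1 : coeffMap A.subtype (P * R) = coeffMap A.subtype P * coeffMap A.subtype R := map_mul _ _ _
    have e2 : coeffMap A.subtype (Q * S) = coeffMap A.subtype Q * coeffMap A.subtype S := map_mul _ _ _
    have e3 : coeffMap (IsLocalRing.residue A) (P * R) =
      coeffMap (IsLocalRing.residue A) P * coeffMap (IsLocalRing.residue A) R := map_mul _ _ _
    have e4 : coeffMap (IsLocalRing.residue A) (Q * S) =
      coeffMap (IsLocalRing.residue A) Q * coeffMap (IsLocalRing.residue A) S := map_mul _ _ _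
    refine ⟨P * R, Q * S, e1 ▸ mul_mem hP hR, e2 ▸ mul_mem hQ hS, e3 ▸ mul_mem hP' hR',
      e4 ▸ mul_mem hQ' hS', e3 ▸ mul_ne_zero hP0 hR0, e4 ▸ mul_ne_zero hQ0 hS0, ?_, ?_⟩
    · intro v
      have f1 : (⟨_, e1 ▸ mul_mem hP hR⟩ : modularFunctionFieldBar N) = ⟨_, hP⟩ * ⟨_, hR⟩ :=
        Subtype.ext e1
      have f2 : (⟨_, e2 ▸ mul_mem hQ hS⟩ : modularFunctionFieldBar N) = ⟨_, hQ⟩ * ⟨_, hS⟩ :=
        Subtype.ext e2
      rw [f1, f2, v.ord_mul (hne hP hP0) (hne hR hR0), v.ord_mul (hne hQ hQ0) (hne hS hS0),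
        Finsupp.add_apply, h2, h4]
      ring
    · intro w
      have f1 : (⟨_, e3 ▸ mul_mem hP' hR'⟩ :
          modularFunctionFieldFullC (IsLocalRing.ResidueField A) N) = ⟨_, hP'⟩ * ⟨_, hR'⟩ :=
        Subtype.ext e3
      have f2 : (⟨_, e4 ▸ mul_mem hQ' hS'⟩ :
          modularFunctionFieldFullC (IsLocalRing.ResidueField A) N) = ⟨_, hQ'⟩ * ⟨_, hS'⟩ :=
        Subtype.ext e4
      rw [f1, f2, w.ord_mul (hne' hP' hP0) (hne' hR' hR0), w.ord_mul (hne' hQ' hQ0) (hne' hS' hS0),
        Finsupp.mapDomain_add, Finsupp.add_apply, h3, h5]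
      ring
  | neg E _ hE =>
    obtain ⟨P, Q, hP, hQ, hP', hQ', hP0, hQ0, h2, h3⟩ := hE
    refine ⟨Q, P, hQ, hP, hQ', hP', hQ0, hP0, ?_, ?_⟩
    · intro v
      rw [Finsupp.neg_apply, h2]
      ring
    · intro w
      rw [← Finsupp.mapDomain.addMonoidHom_apply, map_neg, Finsupp.mapDomain.addMonoidHom_apply,
        Finsupp.neg_apply, h3]
      ring

end Helpers

set_option synthInstance.maxHeartbeats 400000 in
open AlgebraicCurve Fermat.Agent.RR Fermat.Agent.RedMod in
theorem result' (N : ℕ) [NeZero N] {ℓ : ℕ}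
    [Fact ℓ.Prime] (hℓN : ¬ ℓ ∣ N) (A : ValuationSubring (AlgebraicClosure ℚ)) (hA : A.LiesOverPrime ℓ)
    (h : ModularCurve.ReductionInputsModL A N) (m : ℕ) (hm : ¬ ℓ ∣ m) (z : ModularCurve.JZero N)
    (hmz : m • z = 0) (hz : ModularCurve.reductionModL A N z = 0) :
    z = 0 := by
  classical
  obtain ⟨D, rfl⟩ := Pic0.mk_surjective z
  set r := placeReductionModL h with hrdef
  have hr : IsPlaceReductionModL A N r := isPlaceReductionModL_placeReductionModL h
  have hgen := h.choose_spec.2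
  have hm0 : m ≠ 0 := by rintro rfl; exact hm (dvd_zero _)
  -- `m • D` is principal
  have h1 : ((m • D : Divisor.degZero (K := AlgebraicClosure ℚ) (F := modularFunctionFieldBar N)) :
      Divisor (AlgebraicClosure ℚ) (modularFunctionFieldBar N)) ∈
      Divisor.principal (K := AlgebraicClosure ℚ) (F := modularFunctionFieldBar N) := by
    have h2 : Pic0.mk (m • D) = 0 := by
      rw [← hmz]; rfl
    exact AddSubgroup.mem_addSubgroupOf.1 ((QuotientAddGroup.eq_zero_iff _).1 h2)
  obtain ⟨P, Q, hP, hQ, hP', hQ', hP0, hQ0, h2, h3⟩ := exists_quot hr (hgen h1)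
  -- the reduction of `D` is principal
  have h4 : ((reductionDegZeroAlong (placeReductionModL h)
      (isPlaceReductionModL_placeReductionModL h).1 D : Divisor.degZero
        (K := IsLocalRing.ResidueField A)
        (F := modularFunctionFieldFullC (IsLocalRing.ResidueField A) N)) :
        Divisor (IsLocalRing.ResidueField A)
          (modularFunctionFieldFullC (IsLocalRing.ResidueField A) N)) ∈
      Divisor.principal (K := IsLocalRing.ResidueField A)
        (F := modularFunctionFieldFullC (IsLocalRing.ResidueField A) N) := by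
    rw [reductionModL_mk h] at hz
    exact AddSubgroup.mem_addSubgroupOf.1 ((QuotientAddGroup.eq_zero_iff _).1 hz)
  rw [coe_reductionDegZeroAlong] at h4
  obtain ⟨g, hg, hgD⟩ := h4
  set D0 : Divisor (AlgebraicClosure ℚ) (modularFunctionFieldBar N) := D.1 with hD0
  have h5 : ∀ v, (m : ℤ) * D0 v = v.ord (⟨_, hP⟩ : modularFunctionFieldBar N) -
        v.ord (⟨_, hQ⟩ : modularFunctionFieldBar N) := by
    intro v
    rw [← h2 v]
    simp [hD0]
  have h6 : ∀ w : Place (IsLocalRing.ResidueField A)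
      (modularFunctionFieldFullC (IsLocalRing.ResidueField A) N), (m : ℤ) * w.ord g =
      w.ord (⟨_, hP'⟩ : modularFunctionFieldFullC (IsLocalRing.ResidueField A) N) -
        w.ord (⟨_, hQ'⟩ : modularFunctionFieldFullC (IsLocalRing.ResidueField A) N) := by
    intro w
    rw [← h3 w, ← hgD w]
    have : Finsupp.mapDomain r ((m • D : Divisor.degZero (K := AlgebraicClosure ℚ)
        (F := modularFunctionFieldBar N)) :
        Divisor (AlgebraicClosure ℚ) (modularFunctionFieldBar N)) = m • Finsupp.mapDomain r D0 := by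
      rw [AddSubgroupClass.coe_nsmul, Finsupp.mapDomain_smul]
    rw [this]
    simp [hrdef]
  have hP0' : (⟨_, hP'⟩ : modularFunctionFieldFullC (IsLocalRing.ResidueField A) N) ≠ 0 :=
    fun h0 => hP0 (congrArg Subtype.val h0)
  have hQ0' : (⟨_, hQ'⟩ : modularFunctionFieldFullC (IsLocalRing.ResidueField A) N) ≠ 0 :=
    fun h0 => hQ0 (congrArg Subtype.val h0)
  -- constants
  haveI : FunField (IsLocalRing.ResidueField A)
      (modularFunctionFieldFullC (IsLocalRing.ResidueField A) N) :=
    funField_FF (natCast_residue_ne_zero hA hℓN)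
  obtain ⟨γ, h7⟩ := exists_root_of_ord (K := IsLocalRing.ResidueField A)
    (F := modularFunctionFieldFullC (IsLocalRing.ResidueField A) N) hm0 hP0' hQ0' hg h6
  -- rigidity
  obtain ⟨f, hf⟩ : ∃ f : modularFunctionFieldBar N, f = ⟨_, hP⟩ / ⟨_, hQ⟩ := ⟨_, rfl⟩
  have hinj : Function.Injective (coeffMap A.subtype) :=
    Fermat.Agent.ModPoly.coeffMap_injective A.subtype_injective
  have hPne : (⟨_, hP⟩ : modularFunctionFieldBar N) ≠ 0 := by
    intro h0
    apply hP0
    rw [hinj ((congrArg Subtype.val h0).trans (map_zero _).symm), map_zero]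
  have hQne : (⟨_, hQ⟩ : modularFunctionFieldBar N) ≠ 0 := by
    intro h0
    apply hQ0
    rw [hinj ((congrArg Subtype.val h0).trans (map_zero _).symm), map_zero]
  have hfQ : f * ⟨_, hQ⟩ = ⟨_, hP⟩ := by rw [hf]; exact div_mul_cancel₀ _ hQne
  have hford : ∀ v, v.ord f = (m : ℤ) * D0 v := by
    intro v
    rw [h5 v, hf, div_eq_mul_inv, v.ord_mul hPne (inv_ne_zero hQne), v.ord_inv, sub_eq_add_neg]
  obtain ⟨x, hx⟩ := rigidity_modular hA hℓN hm (f := f) (P := P) (Q := Q)
    (congrArg Subtype.val hfQ) hP0 hQ0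
    (γ := (γ : LaurentSeries (IsLocalRing.ResidueField A))) γ.2
    (congrArg Subtype.val h7) (fun v => by rw [hford v]; exact dvd_mul_right _ _)
  have hf0 : f ≠ 0 := by rw [hf]; exact div_ne_zero hPne hQne
  have hx0 : x ≠ 0 := by
    rintro rfl
    rw [zero_pow hm0] at hx
    exact hf0 hx.symm
  have h9 : ∀ v, D0 v = v.ord x := by
    intro v
    have h10 := hford v
    rw [← hx, Fermat.Agent.Curve.ord_pow] at h10
    exact (mul_left_cancel₀ (by exact_mod_cast hm0) h10).symm
  refine (QuotientAddGroup.eq_zero_iff _).2 (AddSubgroup.mem_addSubgroupOf.2 ?_)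
  exact ⟨x, hx0, h9⟩

theorem result (N : ℕ) [NeZero N] {ℓ : ℕ}
    [Fact ℓ.Prime] (hℓN : ¬ ℓ ∣ N) (A : ValuationSubring (AlgebraicClosure ℚ)) (hA : A.LiesOverPrime ℓ)
    (h : ModularCurve.ReductionInputsModL A N) (m : ℕ) (hm : ¬ ℓ ∣ m) (z : ModularCurve.JZero N)
    (hmz : m • z = 0) (hz : ModularCurve.reductionModL A N z = 0) :
    z = 0 :=
  result' N hℓN A hA h m hm z hmz hz

end Fermat.Agent.S18
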