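import Fermat.Statements.S19
import Fermat.Agent.FFG.JZero

set_option autoImplicit false
set_option linter.style.haveILetI false
open ModularCurve
open ModularCurve

namespace Fermat.Agent.S19

theorem result
    (p : ℕ) [NeZero p] (ℓ : ℕ) [Fact ℓ.Prime] (hℓp : ¬ ℓ ∣ p) (k : ℕ) :
    ∃ (H : Type) (_ : CommRing H) (_ : HopfAlgebra (GaloisRep.ratLocalizedAt ℓ) H),
      Module.Finite (GaloisRep.ratLocalizedAt ℓ) H ∧ Module.Flat (GaloisRep.ratLocalizedAt ℓ) H ∧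
      Coalgebra.IsCocomm (GaloisRep.ratLocalizedAt ℓ) H ∧
      ∃ e : WithConv (H →ₐ[GaloisRep.ratLocalizedAt ℓ] AlgebraicClosure ℚ) ≃
          ↥(Submodule.torsionBy ℤ (JZero p) ((ℓ : ℤ) ^ k)),
        (∀ f g, e (f * g) = e f + e g) ∧
        ∀ (σ : AlgebraicClosure ℚ ≃ₐ[ℚ] AlgebraicClosure ℚ)
          (f g : WithConv (H →ₐ[GaloisRep.ratLocalizedAt ℓ] AlgebraicClosure ℚ)),
          (∀ h : H, g h = σ (f h)) → ((e g : JZero p)) = σ • (e f : JZero p) := by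
  obtain ⟨A, hA⟩ := Fermat.Agent.Places.exists_liesOverPrime (AlgebraicClosure ℚ)
    (Fact.out : ℓ.Prime)
  obtain ⟨ι⟩ := Fermat.Agent.RedMod.exists_ιC
  haveI : NeZero (ℓ ^ k) := ⟨pow_ne_zero k (Fact.out : ℓ.Prime).ne_zero⟩
  let V := ↥(Submodule.torsionBy ℤ (JZero p) ((ℓ : ℤ) ^ k))
  have hV : ∀ P : V, (ℓ ^ k) • P = 0 := by
    rintro ⟨P, hP⟩
    apply Subtype.ext
    rw [Submodule.mem_torsionBy_iff] at hP
    change (ℓ ^ k) • P = 0
    rw [← hP, ← Nat.cast_smul_eq_nsmul ℤ]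
    push_cast
    rfl
  have hmem : ∀ P : JZero p, P ∈ Submodule.torsionBy ℤ (JZero p) ((ℓ : ℤ) ^ k) ↔
      (ℓ ^ k) • P = 0 := by
    intro P
    rw [Submodule.mem_torsionBy_iff, ← Nat.cast_smul_eq_nsmul ℤ]
    push_cast
    rfl
  haveI : Finite V := by
    have h1 := Fermat.Agent.MW.finite_torsion' ι (N := p) (ℓ ^ k)
    haveI := h1.to_subtype
    exact Finite.of_injective
      (fun P : V => (⟨(P : JZero p), (hmem _).1 P.2⟩ : {x : JZero p | (ℓ ^ k) • x = 0}))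
      (fun P Q h => Subtype.ext (congrArg Subtype.val h))
  let act : (AlgebraicClosure ℚ ≃ₐ[ℚ] AlgebraicClosure ℚ) → V → V := fun σ P =>
    ⟨σ • (P : JZero p), by
      have h1 := map_nsmul (DistribSMul.toAddMonoidHom (JZero p) σ) (ℓ ^ k) (P : JZero p)
      rw [(hmem _).1 P.2, map_zero] at h1
      exact (hmem _).2 h1.symm⟩
  let φ : V →+ JZero p := (Submodule.torsionBy ℤ (JZero p) ((ℓ : ℤ) ^ k)).subtype.toAddMonoidHom
  have hφ : Function.Injective φ := Subtype.val_injective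
  have hφeq : ∀ (σ : AlgebraicClosure ℚ ≃ₐ[ℚ] AlgebraicClosure ℚ) (P : V),
      φ (act σ P) = σ • φ P := fun σ P => rfl
  have G := Fermat.Agent.FFG.galMod_J (ℓ ^ k) hV act φ hφ hφeq
  obtain ⟨H₀, h₀⟩ := Fermat.Agent.FFG.exists_isHopfFn_J hℓp hA act φ hφ hφeq
  obtain ⟨B, i1, i2, h1, h2, h3, e, he, hact⟩ := Fermat.Agent.FFG.exists_hopf_Z G hA h₀
  exact ⟨B, i1, i2, h1, h2, h3, e, he, fun σ f g h => congrArg Subtype.val (hact σ f g h)⟩

end Fermat.Agent.S19
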