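import Fermat.Statements.S24
import Fermat.Agent.X0Genus.Full
import Fermat.Agent.S20
import Fermat.Agent.Places.Instances

set_option autoImplicit false
open ModularCurve

namespace Fermat.Agent.S24

open Fermat.Agent.X0Genus AlgebraicCurve Fermat.Agent.Curve

theorem exists_hom : Nonempty (AlgebraicClosure ℚ →+* ℂ) :=
  ⟨(IsAlgClosed.lift (R := ℚ) (S := AlgebraicClosure ℚ) (M := ℂ)).toRingHom⟩

theorem result (N : ℕ) [NeZero N]
    [AlgebraicCurve.HasCanonicalDivisor (K := AlgebraicClosure ℚ) (F := ↥(ModularCurve.modularFunctionFieldBar N))] :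
    (AlgebraicCurve.genus (AlgebraicClosure ℚ) ↥(ModularCurve.modularFunctionFieldBar N) : ℚ)
      = ModularCurve.genusFormula N := by
  obtain ⟨ι⟩ := exists_hom
  have hn := finrank_jj (AlgebraicClosure ℚ) N
  have hpl : ∃ v : Place (AlgebraicClosure ℚ) (modularFunctionFieldBar N), True := by
    obtain ⟨hp, hps⟩ := poles_sum (jj (AlgebraicClosure ℚ) N) (transcendental_jj N)
    by_contra hcon
    push Not at hcon
    have h1 : hp.toFinset = ∅ := by
      ext v
      exact (hcon v).elim
    rw [h1, Finset.sum_empty, hn] at hps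
    have := dedekindPsi_ne_zero' N
    omega
  have hex : ∃ ω : Ω[modularFunctionFieldBar N⁄AlgebraicClosure ℚ], ω ≠ 0 := by
    obtain ⟨v, -⟩ := hpl
    haveI := nontrivial_kaehler (jj (AlgebraicClosure ℚ) N) v
    exact exists_ne 0
  have hgen : AlgebraicCurve.genus (AlgebraicClosure ℚ) (modularFunctionFieldBar N) =
      (Divisor.degree (canonicalDivisorOf hex.choose_spec) + 2).toNat / 2 := by
    rw [AlgebraicCurve.genus, dif_pos hex]
  have hd := degree_canonical_X0 (AlgebraicClosure ℚ) N ι hex.choose_spec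
    (canonicalDivisorOf hex.choose_spec) (canonicalDivisorOf_apply hex.choose_spec)
  rw [hgen]
  have h20 := Fermat.Agent.S20.result N
  rw [← h20] at hd ⊢
  have h3 : Divisor.degree (canonicalDivisorOf hex.choose_spec) =
      2 * (Module.finrank ℂ (CuspForm (CongruenceSubgroup.Gamma0 N) 2) : ℤ) - 2 := by
    exact_mod_cast hd
  rw [h3]
  have h4 : (2 * (Module.finrank ℂ (CuspForm (CongruenceSubgroup.Gamma0 N) 2) : ℤ) - 2 + 2).toNat / 2 = Module.finrank ℂ (CuspForm (CongruenceSubgroup.Gamma0 N) 2) := by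
    omega
  rw [h4]

end Fermat.Agent.S24
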