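import Fermat.Statements.S26
import Fermat.Agent.S26A.Fin2
import Fermat.Agent.S26A.CT9
import Fermat.Agent.S26A.Gr8
import Fermat.Agent.S26A.Gr9
import Fermat.Agent.S26A.Bd7

set_option autoImplicit false
set_option autoImplicit false
open CategoryTheory CategoryTheory.Limits AlgebraicGeometry NeronModelInfra GoodReductionJacobian
universe u
open GoodReductionJacobian GoodReductionJacobian.RelativeGroupLaw

namespace Fermat.Agent.S26

theorem result
    (K : Type u) [Field K] [IsAlgClosed K] {A : Scheme.{u}} (f : A ⟶ Spec (CommRingCat.of K))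
    (L : RelativeGroupLaw K f) (hc : L.IsCommutative) (hA : AbelianSchemePropertyBundle K f)
    (g : ℕ) [SmoothOfRelativeDimension g f] (n : ℕ) (hn : (n : K) ≠ 0) :
    Nat.card {x : SchemeHomOver (𝟙 (Spec (CommRingCat.of K))) f //
        L.IsTorsionPoint (𝟙 (Spec (CommRingCat.of K))) n x} = n ^ (2 * g) := by
  refine Fermat.Agent.S26A.card_of_main' f L hc hA g n fun B => ?_
  let T : ∀ j, Fermat.Agent.S26A.CT K (B.FC j) := fun j => Fermat.Agent.S26A.ctOf K (B.FC j)
  have hB : Fermat.Agent.S26A.BoundSt B T := Fermat.Agent.S26A.AVar.bound7 T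
  exact B.card_of_boundSt hB (B.lowerSt T hB) n hn

end Fermat.Agent.S26
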