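import Fermat.Statements.S37
import Fermat.Agent.Spec.Main

set_option autoImplicit false
open ModularCurve

namespace Fermat.Agent.S37

theorem result (N p : ℕ) [NeZero N] (hcomm : ModularCurve.HeckeOperatorsCommuteBar N) : letI := ModularCurve.heckeModuleBar N; ∀ (_ : SMulCommClass (AlgebraicClosure ℚ ≃ₐ[ℚ] AlgebraicClosure ℚ) ModularCurve.HeckeAlg (ModularCurve.JZero N)), ModularCurve.SpecializationExists (K := ℚ) (L := AlgebraicClosure ℚ) N p (ModularCurve.JZero N) := by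
  letI := ModularCurve.heckeModuleBar N
  intro hsc ℓ hℓ hNp A hA
  haveI : Fact ℓ.Prime := ⟨hℓ⟩
  have hN : ¬ ℓ ∣ N := fun h => hNp (h.mul_right p)
  have hp : ¬ ℓ ∣ p := fun h => hNp (h.mul_left N)
  obtain ⟨P, hP, f, Φ, Φi, h1, h2, h3, h4, h5, h6, h7⟩ :=
    Fermat.Agent.Spec.specialization_JZero (A := A) (N := N) hA hN
  letI := hP
  have hst : ∀ (T : HeckeAlg) (x : JZero N), f x = 0 → f (T • x) = 0 := by
    refine Fermat.Agent.Spec.ker_stable hcomm f ?_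
    intro q x hx
    by_cases hq : (q : ℕ) = ℓ
    · have hq' : q = ⟨ℓ, hℓ⟩ := Subtype.ext hq
      rw [hq', h4, hx, map_zero, map_zero, smul_zero, add_zero]
    · exact h3 q hq x hx
  obtain ⟨hmod, hlin⟩ := Fermat.Agent.Spec.exists_module f h1 hst
  refine ⟨P, hP, hmod, f, Φ, ⟨hlin, h5, h6, ?_⟩, ?_⟩
  · rintro x ⟨n, hn⟩ hx
    exact h7 (p ^ n) (fun h => hp (hℓ.dvd_of_dvd_pow h)) x hn hx
  · intro y
    obtain ⟨x, hx⟩ := h1 (Φ y)
    have h8 : heckeGen ⟨ℓ, hℓ⟩ • Φ y = Φ (Φ y) + ℓ • y := by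
      rw [← hx, ← hlin]
      have h9 := ModularCurve.heckeModuleBar_heckeGen_smul hcomm ⟨ℓ, hℓ⟩ x
      rw [h9, h4, hx, h2]
    rw [h8]
    abel

end Fermat.Agent.S37
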