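import Fermat.Statements.S44
import Fermat.Agent.PRem.Final44

set_option autoImplicit false
open WeierstrassCurve WeierstrassCurve.Affine WeierstrassCurve.Affine.Point
open CuspForm ModularFormClass UpperHalfPlane
open FreyPackage

namespace Fermat.Agent.S44

theorem result (P : FreyPackage) {N : ℕ} (hcond : P.IsConductorLevel N) (hpN : P.p ∣ N) (hirr : GaloisRepIsIrreducible (K := AlgebraicClosure ℚ) ℚ P.freyCurve P.p) (hmod : P.ModularRepOfLevel N) : ∃ M : ℕ, M ∣ N ∧ ¬ P.p ∣ M ∧ P.ModularRepOfLevel M := by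
  haveI : Fact P.p.Prime := ⟨P.pp⟩
  have hpabc := hcond.p_dvd_abc hpN
  obtain ⟨M, rfl⟩ := hpN
  have hM0 : M ≠ 0 := by
    rintro rfl
    exact absurd hcond.pos (by simp)
  haveI : NeZero M := ⟨hM0⟩
  have hpM : ¬ P.p ∣ M := by
    rintro ⟨m, rfl⟩
    exact hcond.sq_not_dvd P.pp ⟨m, by ring⟩
  refine ⟨M, dvd_mul_left M P.p, hpM, ?_⟩
  obtain ⟨f, W, 𝔪, hf, hW, h𝔪, hp𝔪, hcong⟩ := hmod
  obtain ⟨g, hg, m, hm, hpm, h⟩ := Fermat.Agent.PRem.conc_frey P hpM hpabc hirr hW hf h𝔪 hp𝔪 hcong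
  refine ⟨g, W, m, hg, hW, hm, hpm, fun ℓ hℓ hℓW hℓM hℓp => ?_⟩
  obtain ⟨α, h1, h2⟩ := h ℓ hℓ hℓM ⟨hℓW, hℓp⟩
  exact ⟨α, h1, h2⟩

end Fermat.Agent.S44
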