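import Fermat.Statements.S43
import Fermat.Agent.S44
import Fermat.Agent.Sel.Fin3
import Fermat.Agent.Sel.Wit

set_option autoImplicit false
open WeierstrassCurve WeierstrassCurve.Affine WeierstrassCurve.Affine.Point
open CuspForm ModularFormClass UpperHalfPlane
open FreyPackage

namespace Fermat.Agent.S43

open IsLocalRing Fermat.Agent.Sel Fermat.Agent.MD in
theorem aux (P : FreyPackage) [Fact P.p.Prime] (hirr : GaloisRepIsIrreducible (K := AlgebraicClosure ℚ) ℚ P.freyCurve P.p)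
    {M : ℕ} [NeZero M] (hsq : Squarefree M) (hpM : ¬ P.p ∣ M) (hmod : P.ModularRepOfLevel M)
    (hmin : ∀ l, l.Prime → l ∣ M → ¬ P.ModularRepOfLevel (M / l))
    {q : ℕ} (hq : q.Prime) (hq2 : q ≠ 2) (hqM : q ∣ M) : False := by
  obtain ⟨ρ, h⟩ := exists_res0 P hirr
  obtain ⟨O, _, _, _, _, _, _, hmO, hroot⟩ := exists_wit P.p
  have hpO : (P.p : O) ∈ maximalIdeal O := by
    rw [hmO]; exact Ideal.mem_span_singleton_self _
  haveI : CharP (ResidueField O) P.p := Fermat.Agent.TW.charP_res hpO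
  letI : Algebra (ZMod P.p) (ResidueField O) := ZMod.algebra _ P.p
  have h2k : (2 : ResidueField O) ≠ 0 := two_ne_k (algebraMap (ZMod P.p) (ResidueField O))
  have h2O : IsUnit (2 : O) := by
    by_contra hnu
    apply h2k
    have h1 : (2 : O) ∈ maximalIdeal O := (IsLocalRing.mem_maximalIdeal _).2 hnu
    rw [← map_ofNat (residue O)]
    exact (IsLocalRing.residue_eq_zero_iff _).2 h1
  letI : Invertible (2 : O) := h2O.invertible
  let ι : AlgebraicClosure ℚ →+* ℂ := (IsAlgClosed.lift : AlgebraicClosure ℚ →ₐ[ℚ] ℂ).toRingHom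
  obtain ⟨g₀, hg₀⟩ := h.g0
  obtain ⟨k₀, hk₀⟩ := h.k0
  have hg₀' : extk ρ (algebraMap (ZMod P.p) (ResidueField O)) g₀ 0 1 = 1 := by
    rw [extk_apply, Matrix.map_apply, hg₀, map_one]
  have hk₀' : extk ρ (algebraMap (ZMod P.p) (ResidueField O)) k₀ 1 0 ≠ 0 := by
    rw [extk_apply, Matrix.map_apply]
    exact fun h0 => hk₀ ((map_eq_zero _).1 h0)
  have hgk := irrAt_rep h2k (extk_conj h _) hg₀' hk₀'
  have hW : P.freyCurveInt.IsIntegralModelOf P.freyCurve := ⟨1, by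
    rw [one_smul]; exact EC.freyCurve_eq_map P⟩
  obtain ⟨r', hr', hr'S, hr'12, hr'p, -, hr'1, hr't⟩ := exists_rprime h
    (algebraMap (ZMod P.p) (ResidueField O)) hW (S := (M.primeFactors : Set ℕ))
    (Finset.finite_toSet _)
  have hr'M : ¬ r' ∣ M := fun hd => hr'S (by
    rw [Finset.mem_coe, Nat.mem_primeFactors]
    exact ⟨hr', hd, NeZero.ne M⟩)
  refine no_odd h hmO hpO ι hroot hg₀' hgk hW hsq hpM hmod hmin hr' hr'p hr'M hr'12 hr'1 hr't
    (S₀ := S0 P P.freyCurveInt (insert r' M.primeFactors)) (S0_finite hW _) p_mem_S0 two_mem_S0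
    (fun l _ hl => good_of_not_mem hl) (fun l hl hd => ?_) hq hq2 hqM
  apply mem_S0
  rw [Finset.mem_insert, Nat.mem_primeFactors]
  rcases (Nat.Prime.dvd_mul hl).1 hd with h1 | h1
  · exact Or.inr ⟨hl, h1, NeZero.ne M⟩
  · exact Or.inl ((Nat.prime_dvd_prime_iff_eq hl hr').1 h1)

theorem result (P : FreyPackage) {N q : ℕ} (hcond : P.IsConductorLevel N) (hq : q.Prime) (hq2 : q ≠ 2) (hqp : q ≠ P.p) (hqN : q ∣ N) (hirr : GaloisRepIsIrreducible (K := AlgebraicClosure ℚ) ℚ P.freyCurve P.p) (hmod : P.ModularRepOfLevel N) (hunr : P.GaloisRepUnramifiedAt q) : ∃ M : ℕ, M ∣ N ∧ ¬ q ∣ M ∧ P.ModularRepOfLevel M := by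
  classical
  haveI : Fact P.p.Prime := ⟨P.pp⟩
  obtain ⟨M₀, hM₀N, hpM₀, hmod₀⟩ : ∃ M₀, M₀ ∣ N ∧ ¬ P.p ∣ M₀ ∧ P.ModularRepOfLevel M₀ := by
    by_cases hpN : P.p ∣ N
    · exact Fermat.Agent.S44.result P hcond hpN hirr hmod
    · exact ⟨N, dvd_rfl, hpN, hmod⟩
  have hex : ∃ M, M ∣ M₀ ∧ P.ModularRepOfLevel M := ⟨M₀, dvd_rfl, hmod₀⟩
  obtain ⟨hMM₀, hM⟩ := Nat.find_spec hex
  have hmin : ∀ l, l.Prime → l ∣ Nat.find hex → ¬ P.ModularRepOfLevel (Nat.find hex / l) := by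
    intro l hl hd hmod'
    have hpos : 0 < Nat.find hex := Nat.pos_of_dvd_of_pos (hMM₀.trans hM₀N) hcond.pos
    exact Nat.find_min hex (Nat.div_lt_self hpos hl.one_lt)
      ⟨(Nat.div_dvd_of_dvd hd).trans hMM₀, hmod'⟩
  by_cases hqM : q ∣ Nat.find hex
  · exfalso
    haveI : NeZero (Nat.find hex) :=
      ⟨(Nat.pos_of_dvd_of_pos (hMM₀.trans hM₀N) hcond.pos).ne'⟩
    exact aux P hirr (hcond.squarefree.squarefree_of_dvd (hMM₀.trans hM₀N))
      (fun hd => hpM₀ (hd.trans hMM₀)) hM hmin hq hq2 hqM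
  · exact ⟨_, hMM₀.trans hM₀N, hqM, hM⟩

end Fermat.Agent.S43
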