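import Fermat.Statements.S48
import Fermat.Agent.DS.MultH

set_option autoImplicit false
set_option autoImplicit false
open CongruenceSubgroup
open scoped MatrixGroups
local notation "Γℚ" => (AlgebraicClosure ℚ ≃ₐ[ℚ] AlgebraicClosure ℚ)
open DeligneSerre

namespace Fermat.Agent.S48

theorem result
    (N : ℕ) [NeZero N] (ε : DirichletCharacter ℂ N) (f : CuspForm (Gamma1 N) 1)
    (hf₁ : ModularFormClass.qCoeff f 1 = 1)
    (hT : ∀ p : ℕ, p.Prime → ¬ p ∣ N → ∀ n : ℕ,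
        ModularFormClass.qCoeff f (p * n) +
            ε (p : ZMod N) * (if p ∣ n then ModularFormClass.qCoeff f (n / p) else 0) =
          ModularFormClass.qCoeff f p * ModularFormClass.qCoeff f n) :
    ∃ ρ : Γℚ →* GL (Fin 2) ℂ, GaloisFactorsThroughFiniteLevel ρ ∧
      (Deformation.matrixRepresentation ρ).IsIrreducible ∧
      ∀ p : ℕ, p.Prime → ¬ p ∣ N →
        ∀ A : ValuationSubring (AlgebraicClosure ℚ), A.LiesOverPrime p →
          (∀ σ ∈ A.inertiaSubgroupIn ℚ, ρ σ = 1) ∧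
          ∀ σ : Γℚ, A.IsFrobeniusAt σ p →
            ((ρ σ : GL (Fin 2) ℂ) : Matrix (Fin 2) (Fin 2) ℂ).trace = ModularFormClass.qCoeff f p ∧
            ((ρ σ : GL (Fin 2) ℂ) : Matrix (Fin 2) (Fin 2) ℂ).det = ε (p : ZMod N) := by
  haveI := Fermat.Agent.DS.neZero_sq (N := N)
  have hcf : Fermat.Agent.MFLib.IsCF (Gamma1 N) 1 f := Fermat.Agent.MFLib.IsCF.of_class f
  obtain ⟨ε', f', h, hp'⟩ := Fermat.Agent.DS.exists_WF ε hcf hf₁ hT
  obtain ⟨ρ, h1, h2, h3⟩ := h.exists_rep fun α e hα he => ⟨5, h.hasRes α e hα he⟩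
  refine ⟨ρ, h1, h2, fun p hp hpN A hA => ?_⟩
  have hpN2 : ¬ p ∣ N ^ 2 := fun hd => hpN (hp.dvd_of_dvd_pow hd)
  obtain ⟨e1, e2⟩ := hp' p hp hpN
  obtain ⟨h4, h5⟩ := h3 p hp hpN2 A hA
  refine ⟨h4, fun σ hσ => ?_⟩
  obtain ⟨h6, h7⟩ := h5 σ hσ
  exact ⟨h6.trans e2, h7.trans e1⟩

end Fermat.Agent.S48
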