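import Fermat.Statements.S49
import Fermat.Agent.Eigen.Lifting

set_option autoImplicit false
set_option linter.style.haveILetI false
open CuspForm EisensteinWeightOne CongruenceSubgroup ModularFormClass
open FLT FLT.AbstractIntegralStructure

namespace Fermat.Agent.S49

open Fermat.Agent.Eigen

theorem chiNegThree_modEq (n : ℕ) : (3 : ℤ) ∣ (n : ℤ) - chiNegThree n := by
  unfold chiNegThree
  split_ifs with h1 h2
  · omega
  · omega
  · omega

theorem three_dvd_bridgeProduct_sub (a : ℕ → ℤ) (n : ℕ) :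
    (3 : ℤ) ∣ (bridgeProduct a).coeff n - a n := by
  have h : e1Chi3In ℤ = 1 + PowerSeries.C (3 : ℤ) *
      PowerSeries.mk (fun n => if n = 0 then (0 : ℤ) else 2 * sigmaChi n) := by
    ext n
    simp only [e1Chi3In, e1Chi3, PowerSeries.coeff_map, PowerSeries.coeff_mk, map_add,
      PowerSeries.coeff_C_mul, PowerSeries.coeff_one]
    by_cases hn : n = 0
    · simp [hn]
    · simp [hn]; ring
  rw [bridgeProduct, h, mul_add, mul_one, map_add, PowerSeries.coeff_mk, add_sub_cancel_left,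
    mul_left_comm, PowerSeries.coeff_C_mul]
  exact dvd_mul_right _ _

/-- A form all whose coefficients are integers divisible by `p` is `p` times an integral form. -/
theorem exists_smul_eq_of_dvd {N : ℕ} [NeZero N] (p : ℤ) (hp : p ≠ 0) (f : CuspForm (Gamma0 N) 2)
    (h : ∀ n : ℕ, ∃ m : ℤ, qCoeff f n = (m : ℂ) ∧ p ∣ m) :
    ∃ w : intLattice N 2, f = p • (w : CuspForm (Gamma0 N) 2) := by
  have hpC : (p : ℂ) ≠ 0 := by exact_mod_cast hp
  refine ⟨⟨(p : ℂ)⁻¹ • f, ?_⟩, ?_⟩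
  · rw [Fermat.Agent.Eigen.mem_intLattice_iff]
    intro n
    obtain ⟨m, hm, c, rfl⟩ := h n
    refine ⟨c, ?_⟩
    rw [qCoeff_smul, hm]
    push_cast
    field_simp
  · rw [← Int.cast_smul_eq_zsmul ℂ]
    change f = (p : ℂ) • (p : ℂ)⁻¹ • f
    rw [smul_smul, mul_inv_cancel₀ hpC, one_smul]

/-- The ideal of Hecke operators annihilating `F` modulo `p`. -/
def modIdeal {N : ℕ} [NeZero N] (p : ℤ) (F : intLattice N 2) : Ideal (heckeLatticeAlgebra N ∅) where
  carrier := {t | ∃ w : intLattice N 2, t • F = p • w}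
  add_mem' := by
    rintro a b ⟨w, hw⟩ ⟨w', hw'⟩
    exact ⟨w + w', by rw [add_smul, hw, hw', smul_add]⟩
  zero_mem' := ⟨0, by rw [zero_smul, smul_zero]⟩
  smul_mem' := by
    rintro c t ⟨w, hw⟩
    exact ⟨c • w, by rw [smul_eq_mul, mul_smul, hw, smul_comm]⟩

theorem mem_modIdeal {N : ℕ} [NeZero N] (p : ℤ) (F : intLattice N 2) (t : heckeLatticeAlgebra N ∅) :
    t ∈ modIdeal p F ↔ ∃ w : intLattice N 2, t • F = p • w := Iff.rfl

theorem result
    {N : ℕ} [NeZero N] (h : CuspForm.HasIntegralBasis N) {a : ℕ → ℤ}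
    (heig : FormalHecke.IsEigensystem
      (fun ℓ => if ℓ ∣ N then 0 else ((chiNegThree ℓ : ℤ) : ℤ)) a)
    (hreal : CuspForm.IsLatticeRealized N a) :
    ∃ (f : CuspForm (Gamma0 N) 2) (_ : f.IsNormalizedEigenform)
      (𝔪' : Ideal (integralClosure ℤ ℂ)), 𝔪'.IsMaximal ∧
      ((3 : ℕ) : integralClosure ℤ ℂ) ∈ 𝔪' ∧
      ∀ (ℓ : ℕ) (_ : ℓ.Prime) (_ : ¬ ℓ ∣ N),
        ∃ c : integralClosure ℤ ℂ, (c : ℂ) = ModularFormClass.qCoeff f ℓ ∧
          c - (a ℓ : integralClosure ℤ ℂ) ∈ 𝔪' := by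
  obtain ⟨f, -, af, haf, hbr⟩ := hreal
  have hcong : ∀ n, (3 : ℤ) ∣ af n - a n := fun n => by
    have := dvd_add (hbr n) (three_dvd_bridgeProduct_sub a n)
    simpa using this
  have hf : f ∈ intLattice N 2 := by
    rw [Fermat.Agent.Eigen.mem_intLattice_iff]
    exact fun n => ⟨af n, (haf n).symm⟩
  let F : intLattice N 2 := ⟨f, hf⟩
  have hI : modIdeal 3 F ≠ ⊤ := by
    intro htop
    rw [Ideal.eq_top_iff_one, mem_modIdeal] at htop
    obtain ⟨w, hw⟩ := htop
    rw [one_smul] at hw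
    have hw' : f = (3 : ℤ) • (w : CuspForm (Gamma0 N) 2) := congrArg Subtype.val hw
    obtain ⟨m, hm⟩ := (Fermat.Agent.Eigen.mem_intLattice_iff _).mp w.2 1
    rw [← Int.cast_smul_eq_zsmul ℂ] at hw'
    have h1 : qCoeff f 1 = (((3 : ℤ) * m : ℤ) : ℂ) := by
      rw [hw', qCoeff_smul, hm]; push_cast; ring
    rw [← haf 1] at h1
    have h2 : af 1 = 3 * m := by exact_mod_cast h1
    have h3 := hcong 1
    rw [heig.1, h2] at h3
    omega
  obtain ⟨𝔪, h𝔪, hI𝔪⟩ := Ideal.exists_le_maximal _ hI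
  obtain ⟨χ, g, 𝔐, hg, hχ, h𝔐max, h𝔐⟩ := exists_eigenform_of_maximal 𝔪
  have hmem : ∀ t : heckeAlgebra N 2 ∅, latticeRestrictHom N ∅ t ∈ modIdeal 3 F → χ t ∈ 𝔐 := by
    intro t ht
    have : t ∈ 𝔪.comap (latticeRestrictHom N ∅) := hI𝔪 ht
    rw [← h𝔐] at this
    exact this
  refine ⟨g, hg, 𝔐, h𝔐max, ?_, ?_⟩
  · have := hmem ((3 : ℕ) : heckeAlgebra N 2 ∅) (by
      rw [mem_modIdeal, map_natCast]
      exact ⟨F, by rw [Nat.cast_smul_eq_nsmul]; rfl⟩)
    rwa [map_natCast] at this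
  · intro ℓ hℓ hℓN
    set t : heckeAlgebra N 2 ∅ := heckeAlgebra.T hℓ hℓN (Set.notMem_empty _) with ht
    refine ⟨χ t, ?_, ?_⟩
    · have h1 := congrArg (fun y : CuspForm (Gamma0 N) 2 => qCoeff y 1) (hχ t)
      rw [ht, heckeAlgebra.coe_T] at h1
      simp only [qCoeff_smul, hg.qCoeff_one, mul_one] at h1
      rw [qCoeff_heckeTLin, one_mul, if_neg (fun h => hℓ.one_lt.ne' (Nat.dvd_one.mp h)), add_zero] at h1
      exact h1.symm
    · have := hmem (t - ((a ℓ : ℤ) : heckeAlgebra N 2 ∅)) (by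
        rw [mem_modIdeal]
        have key : ∀ n : ℕ, ∃ m : ℤ, qCoeff (heckeTLin 2 hℓ hℓN f - ((a ℓ : ℤ) : ℂ) • f :
            CuspForm (Gamma0 N) 2) n = (m : ℂ) ∧ (3 : ℤ) ∣ m := by
          intro n
          refine ⟨af (n * ℓ) + (if ℓ ∣ n then (ℓ : ℤ) * af (n / ℓ) else 0) - a ℓ * af n, ?_, ?_⟩
          · rw [qCoeff_sub, qCoeff_smul, qCoeff_heckeTLin, ← haf, ← haf, ← haf]
            split_ifs <;> push_cast <;> ring
          · have h1 := heig.2 ℓ hℓ n
            simp only [if_neg hℓN] at h1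
            rw [mul_comm ℓ n] at h1
            obtain ⟨u, hu⟩ := hcong (n * ℓ)
            obtain ⟨v, hv⟩ := hcong n
            obtain ⟨w, hw⟩ := hcong (n / ℓ)
            obtain ⟨z, hz⟩ := chiNegThree_modEq ℓ
            by_cases hd : ℓ ∣ n
            · rw [if_pos hd] at h1 ⊢
              refine ⟨u + ℓ * w + z * a (n / ℓ) - a ℓ * v, ?_⟩
              have e1 : af (n * ℓ) = a (n * ℓ) + 3 * u := by linarith
              have e2 : af n = a n + 3 * v := by linarith
              have e3 : af (n / ℓ) = a (n / ℓ) + 3 * w := by linarith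
              have e4 : (ℓ : ℤ) = chiNegThree ℓ + 3 * z := by linarith
              rw [e1, e2, e3]
              have e5 : (ℓ : ℤ) * a (n / ℓ) = chiNegThree ℓ * a (n / ℓ) + 3 * z * a (n / ℓ) := by
                rw [← add_mul, ← e4]
              linear_combination h1 + e5
            · rw [if_neg hd] at h1 ⊢
              refine ⟨u - a ℓ * v, ?_⟩
              have e1 : af (n * ℓ) = a (n * ℓ) + 3 * u := by linarith
              have e2 : af n = a n + 3 * v := by linarith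
              rw [e1, e2]
              linear_combination h1
        obtain ⟨w, hw⟩ := exists_smul_eq_of_dvd 3 (by norm_num) _ key
        refine ⟨w, Subtype.ext ?_⟩
        rw [map_sub, map_intCast, sub_smul, Int.cast_smul_eq_zsmul]
        rw [Int.cast_smul_eq_zsmul] at hw
        rw [AddSubgroupClass.coe_sub, Submodule.coe_smul, Submodule.coe_smul]
        exact hw)
      rwa [map_sub, map_intCast] at this

end Fermat.Agent.S49
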