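import Fermat.Statements.S51
import Fermat.Agent.EC.X15Geom

set_option autoImplicit false
open WeierstrassCurve WeierstrassCurve.Affine WeierstrassCurve.Affine.Point
open CuspForm ModularFormClass UpperHalfPlane
open WeierstrassCurve

namespace Fermat.Agent.S51

theorem result (W : WeierstrassCurve ℤ) (hΔ : W.Δ ≠ 0) (hW : W.IsSemistableModel) : W.ModRepIsIrreducible 3 ∨ W.ModRepIsIrreducible 5 := by
  by_contra hcon
  rw [not_or] at hcon
  obtain ⟨h3, h5⟩ := hcon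
  have hinj : Function.Injective (Int.castRingHom ℚ) := RingHom.injective_int _
  have hE : (W.map (Int.castRingHom ℚ)).Δ ≠ 0 := by
    rw [WeierstrassCurve.map_Δ]
    intro h
    exact hΔ (hinj (by rw [h, _root_.map_zero]))
  have hEK : (((W.map (Int.castRingHom ℚ)).toAffine)⁄(AlgebraicClosure ℚ)).Δ ≠ 0 := by
    have : (((W.map (Int.castRingHom ℚ)).toAffine)⁄(AlgebraicClosure ℚ)).Δ =
      algebraMap ℚ (AlgebraicClosure ℚ) (W.map (Int.castRingHom ℚ)).Δ :=
        WeierstrassCurve.map_Δ _ _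
    rw [this, Ne, map_eq_zero]
    exact hE
  obtain ⟨N3, hN3, hc3, -, hs3⟩ := Fermat.Agent.EC.exists_stable_line
    (W := (W.map (Int.castRingHom ℚ)).toAffine) hEK Nat.prime_three (by norm_num) h3
  obtain ⟨N5, hN5, hc5, -, hs5⟩ := Fermat.Agent.EC.exists_stable_line
    (W := (W.map (Int.castRingHom ℚ)).toAffine) hEK Nat.prime_five (by norm_num) h5
  obtain ⟨θ, l, c, e1, e2, e3, e4, e5⟩ := Fermat.Agent.EC.exists_rational hN3 hc3 hs3 hN5 hc5 hs5
  have hs := Fermat.Agent.EC.X15.final e1 e2 e3 (e5 hE)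
  have e4' : ((W.c₄ : ℤ) : ℚ) ^ 3 * (c - 11) =
      ((c - 11) ^ 2 + 10 * (c - 11) + 5) ^ 3 * ((W.Δ : ℤ) : ℚ) := by
    have h1 : (W.map (Int.castRingHom ℚ)).c₄ = ((W.c₄ : ℤ) : ℚ) := WeierstrassCurve.map_c₄ _ _
    have h2 : (W.map (Int.castRingHom ℚ)).Δ = ((W.Δ : ℤ) : ℚ) := WeierstrassCurve.map_Δ _ _
    rw [← h1, ← h2]
    exact e4
  obtain ⟨d1, d2⟩ := Fermat.Agent.EC.X15.not_semistable e4' hs
  exact hW 5 Nat.prime_five (by exact_mod_cast d1) (by exact_mod_cast d2)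

end Fermat.Agent.S51
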