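import Fermat.Statements.S52
import Fermat.Agent.S52F.Asm
import Fermat.Agent.S52B.Inst
import Fermat.Agent.S52D.Real
import Fermat.Agent.S52I.Main
import Fermat.Agent.S52L.Crt

set_option autoImplicit false
open WeierstrassCurve WeierstrassCurve.Affine WeierstrassCurve.Affine.Point
open CuspForm ModularFormClass UpperHalfPlane
open WeierstrassCurve

namespace Fermat.Agent.S52

theorem result (W : WeierstrassCurve ℤ) (hΔ : W.Δ ≠ 0) (hW : W.IsSemistableModel) (h5 : W.ModRepIsIrreducible 5) : ∃ W' : WeierstrassCurve ℤ, W'.Δ ≠ 0 ∧ W'.IsSemistableModel ∧ W'.ModRepIsIrreducible 3 ∧ ∀ ℓ : ℕ, ℓ.Prime → W.IsGoodPrimeFor ℓ → W'.IsGoodPrimeFor ℓ → ℓ ≠ 5 → (5 : ℤ) ∣ (W'.apOfModel ℓ - W.apOfModel ℓ) := by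
  haveI : Fact (Nat.Prime 5) := ⟨Nat.prime_five⟩
  obtain ⟨ρ, hρ⟩ := Fermat.Agent.ImW.exists_resW (p := 5) hΔ (by norm_num) h5
  obtain ⟨a, b, h4, h6, hD, hca, hcb⟩ := Fermat.Agent.S52D.exists_w0_real W hΔ
  obtain ⟨hker, hrat, hap⟩ := Fermat.Agent.S52B.partB hΔ hρ h4 h6 hD
  refine Fermat.Agent.S52F.s52_of W hΔ hW h4 h6 hD (fun x y => ?_) (fun x y => ?_)
    (fun x y => ?_) (fun x y _ W' hΔ' h4' h6' ℓ hℓ hg hg' hℓ5 => ?_)
    (fun hred B hB => Fermat.Agent.S52I.irr3 hΔ hW hred hρ h4 h6 hD hca hcb hker hB)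
    (fun {B} hB {l} hl hlB {x₁ y₁} h => Fermat.Agent.S52L.coprime_crt hB hl hlB h)
  · simpa using (hrat x y).1
  · simpa using (hrat x y).2.1
  · simpa using (hrat x y).2.2
  · exact hap x y W' hΔ' (by simpa using h4') (by simpa using h6') ℓ hℓ hg hg' hℓ5

end Fermat.Agent.S52
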