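import Fermat.Statements.S56
import Fermat.Agent.TWG.Final
import Fermat.Agent.LC.Flat
import Fermat.Agent.LC.Ord2

set_option autoImplicit false
set_option autoImplicit false
open Polynomial IsLocalRing
open ResidualGaloisRep

namespace Fermat.Agent.S56

theorem result
    {𝒪 : Type} [CommRing 𝒪] [IsDomain 𝒪] [IsDiscreteValuationRing 𝒪]
    [IsAdicComplete (maximalIdeal 𝒪) 𝒪] [Finite (ResidueField 𝒪)]
    (p : ℕ) [Fact p.Prime] (hp2 : p ≠ 2) (hp𝒪 : (p : 𝒪) ∈ maximalIdeal 𝒪)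
    (ρbar : ResidualGaloisRep (ResidueField 𝒪))
    (habs : ρbar.IsAbsolutelyIrreducible)
    (hdet : (GaloisRepAdic.ofResidualGaloisRep ρbar).DetIsCyclotomic p)
    (hsplit : ∀ σ : AlgebraicClosure ℚ ≃ₐ[ℚ] AlgebraicClosure ℚ,
      ∃ α β : ResidueField 𝒪, LinearMap.charpoly (ρbar.ρ σ) = (X - C α) * (X - C β))
    (hTW : ∀ (K : Type) [Field K] [Algebra (ResidueField 𝒪) K]
      (G : Subgroup (AlgebraicClosure ℚ ≃ₐ[ℚ] AlgebraicClosure ℚ)), G.index = 2 →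
      ∀ V : Submodule K (ρbar.baseChange K).V,
        (∀ σ ∈ G, ∀ x ∈ V, (ρbar.baseChange K).ρ σ x ∈ V) → V = ⊥ ∨ V = ⊤)
    (S Smin : Finset ℕ) (hpSmin : p ∈ Smin) (hSmin : Smin ⊆ S) (hS : ∀ q ∈ S, q.Prime)
    (hmin : ∀ q : ℕ, q.Prime → q ≠ p → (q ∈ Smin ↔ ¬ ρbar.IsUnramifiedAt q)) :
    (∃ r : ℕ, ∀ n : ℕ, ∃ qv : Fin r → ℕ, Function.Injective qv ∧
      (∀ i, (qv i).Prime ∧ qv i ∉ S ∧ p ^ (n + 1) ∣ qv i - 1) ∧
      (∀ i, ∀ P : ValuationSubring (AlgebraicClosure ℚ), P.LiesOverPrime (qv i) →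
        ∀ φ : AlgebraicClosure ℚ ≃ₐ[ℚ] AlgebraicClosure ℚ, P.IsFrobeniusAt φ (qv i) →
          ∃ α β : ResidueField 𝒪, α ≠ β ∧ LinearMap.charpoly (ρbar.ρ φ) = (X - C α) * (X - C β)) ∧
      ∀ DQ : GaloisRep.DeformationRingData 𝒪 ρbar (fun _A _ _ _ ρ =>
          GaloisRep.strictOrdinaryCondition 𝒪 p (Smin ∪ Finset.univ.image qv) ρ ∧
            ∀ q ∈ Smin, q.Prime → q ≠ p → ρ.IsUnipotentOnInertiaAt q),
        ∃ γ : MvPowerSeries (Fin r) 𝒪 →ₐ[𝒪] DQ.R, Function.Surjective γ) ∧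
    (∃ r : ℕ, ∀ n : ℕ, ∃ qv : Fin r → ℕ, Function.Injective qv ∧
      (∀ i, (qv i).Prime ∧ qv i ∉ S ∧ p ^ (n + 1) ∣ qv i - 1) ∧
      (∀ i, ∀ P : ValuationSubring (AlgebraicClosure ℚ), P.LiesOverPrime (qv i) →
        ∀ φ : AlgebraicClosure ℚ ≃ₐ[ℚ] AlgebraicClosure ℚ, P.IsFrobeniusAt φ (qv i) →
          ∃ α β : ResidueField 𝒪, α ≠ β ∧ LinearMap.charpoly (ρbar.ρ φ) = (X - C α) * (X - C β)) ∧
      ∀ DQ : GaloisRep.DeformationRingData 𝒪 ρbar (fun _A _ _ _ ρ =>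
          GaloisRep.flatCondition 𝒪 p (Smin ∪ Finset.univ.image qv) ρ ∧
            ∀ q ∈ Smin, q.Prime → q ≠ p → ρ.IsUnipotentOnInertiaAt q),
        ∃ γ : MvPowerSeries (Fin r) 𝒪 →ₐ[𝒪] DQ.R, Function.Surjective γ) := by
  haveI : CharP (ResidueField 𝒪) p := by
    rw [CharP.charP_iff_prime_eq_zero (Fact.out : p.Prime)]
    have h1 : residue 𝒪 (p : 𝒪) = 0 := (residue_eq_zero_iff _).2 hp𝒪
    rwa [map_natCast] at h1
  letI : Algebra (ZMod p) (ResidueField 𝒪) := ZMod.algebra _ p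
  have hprime : ∀ q ∈ Smin, q.Prime := fun q hq => hS q (hSmin hq)
  obtain ⟨b₀, hconj⟩ := Fermat.Agent.TWG.exists_conj_basis hp2 hdet
  have hR : Fermat.Agent.Sel.ResH p (Fermat.Agent.TWG.resMat ρbar b₀) Smin :=
    Fermat.Agent.TWG.resH_of b₀ hp2 hpSmin hprime hmin hdet
  have hsp := Fermat.Agent.TWG.resMat_split b₀ hsplit
  constructor
  · exact Fermat.Agent.TWG.final_half hp2 habs hdet hsplit hTW S Smin hpSmin hprime hmin b₀ hconj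
      (fun A _ _ ρ => ρ.IsStrictOrdinaryAt p)
      (fun T A _ _ _ _ φ hφ P hs hP => Fermat.Agent.TWG.ord_bc φ hφ P hP)
      (Fermat.Agent.LC.RO (Fermat.Agent.TWG.resMat ρbar b₀) p)
      (fun T _ _ _ _ _ _ P π b hL hcyc hP => Fermat.Agent.LC.resO hL hP)
      (fun A => Fermat.Agent.LC.ordL (Fermat.Agent.TWG.resMat ρbar b₀) p A)
      (fun _ A hA => Fermat.Agent.LC.B1_le_ordL _ p hR.lc A)
      (fun _ A hA => Fermat.Agent.LC.ordL_le_Z1 _ p A)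
      (fun hRO A hA => (Fermat.Agent.LC.dimO hR hRO hA).2)
      (fun _ T _ _ _ _ _ _ P π b hL hcyc hP I D hD c hc A hA =>
        Fermat.Agent.LC.memO hL hD hc hP hcyc hp2 hA)
  · exact Fermat.Agent.TWG.final_half hp2 habs hdet hsplit hTW S Smin hpSmin hprime hmin b₀ hconj
      (fun A _ _ ρ => ρ.IsFlatAt p)
      (fun T A _ _ _ _ φ hφ P hs hP => Fermat.Agent.TWG.flat_bc φ hφ P hs hP)
      (Fermat.Agent.LC.RF (Fermat.Agent.TWG.resMat ρbar b₀) p)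
      (fun T _ _ _ _ _ _ P π b hL hcyc hP => Fermat.Agent.LC.resF hL hp2 hP)
      (fun A => Fermat.Agent.Sel.flatL (Fermat.Agent.TWG.resMat ρbar b₀) p A)
      (fun _ A hA => Fermat.Agent.Sel.B1_le_flatL _ A)
      (fun _ A hA => Fermat.Agent.Sel.flatL_le_Z1 _ hR.lc A)
      (fun hRF A hA => (Fermat.Agent.LC.dimF hR (fun σ => by
        obtain ⟨α, β, h1, h2⟩ := hsp σ
        exact ⟨α, β, h1.symm, h2.symm⟩) hRF hA).2)
      (fun _ T _ _ _ _ _ _ P π b hL hcyc hP I D hD c hc A hA =>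
        Fermat.Agent.LC.memF hL hD hc hp2 hP hA)

end Fermat.Agent.S56
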