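import Fermat.Statements.S57
import Fermat.Agent.Patching.ProjDim

set_option autoImplicit false
set_option linter.style.haveILetI false
set_option linter.unusedSectionVars false
open Algebra Algebra.PatchingLevel

namespace Fermat.Agent.S57

open RingTheory.Sequence IsLocalRing Fermat.Agent.Patching

section

variable {𝒪 : Type} [CommRing 𝒪] [IsDomain 𝒪] [IsDiscreteValuationRing 𝒪]
    {r : ℕ} {R : Type} [CommRing R] [Algebra 𝒪 R]
    {M : Type} [AddCommGroup M] [Module R M]
    (L : Algebra.PatchingLevel 𝒪 r R M ⊥)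

/-- The additive equivalence `Λ^d ≃ N`. -/
noncomputable def coordEquiv : (Fin L.d → MvPowerSeries (Fin r) 𝒪) ≃+ L.N :=
  AddEquiv.ofBijective
    ({ toFun := fun c => ∑ i, L.φ (c i) • L.b i
       map_zero' := by simp
       map_add' := fun c c' => by simp [add_smul, Finset.sum_add_distrib] } :
      (Fin L.d → MvPowerSeries (Fin r) 𝒪) →+ L.N)
    ⟨by
      rw [injective_iff_map_eq_zero]
      intro c hc
      funext i
      exact (L.b_rel c).mp hc i,
    fun x => by
      obtain ⟨c, hc⟩ := L.b_span x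
      exact ⟨c, hc.symm⟩⟩

theorem coordEquiv_apply (c : Fin L.d → MvPowerSeries (Fin r) 𝒪) :
    coordEquiv L c = ∑ i, L.φ (c i) • L.b i := rfl

theorem coordEquiv_smul (a : MvPowerSeries (Fin r) 𝒪) (c : Fin L.d → MvPowerSeries (Fin r) 𝒪) :
    coordEquiv L (a • c) = L.φ a • coordEquiv L c := by
  simp [coordEquiv_apply, Finset.smul_sum, mul_smul]

theorem finite_N : Module.Finite (MvPowerSeries (Fin r) 𝒪) L.N := by
  classical
  refine ⟨⟨Finset.univ.image L.b, ?_⟩⟩
  rw [_root_.eq_top_iff]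
  intro x _
  obtain ⟨c, rfl⟩ := L.b_span x
  refine Submodule.sum_mem _ fun i _ => Submodule.smul_mem _ _ (Submodule.subset_span ?_)
  simp

theorem isWeaklyRegular_N {ϖ : 𝒪} (hϖ : ϖ ≠ 0) :
    IsWeaklyRegular L.N ((rs r ϖ).map L.φ) := by
  have h1 : IsWeaklyRegular (Fin L.d → MvPowerSeries (Fin r) 𝒪) (rs r ϖ) := by
    have h := (isWeaklyRegular_rs (r := r) hϖ).isWeaklyRegular_lTensor
      (M₂ := Fin L.d → MvPowerSeries (Fin r) 𝒪)
    exact ((TensorProduct.rid (MvPowerSeries (Fin r) 𝒪)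
      (Fin L.d → MvPowerSeries (Fin r) 𝒪)).isWeaklyRegular_congr _).mp h
  refine (AddEquiv.isWeaklyRegular_congr (e := coordEquiv L) ?_).mp h1
  rw [List.forall₂_map_right_iff, List.forall₂_same]
  intro a _ x
  exact coordEquiv_smul L a x

theorem φ_mem_of_mem {ϖ : 𝒪} {f : MvPowerSeries (Fin r) 𝒪} (hf : f ∈ Ideal.ofList (rs r ϖ)) :
    L.φ f ∈ Ideal.ofList ((rs r ϖ).map L.φ) := by
  have h := Ideal.mem_map_of_mem (L.φ : MvPowerSeries (Fin r) 𝒪 →+* MvPowerSeries (Fin r) 𝒪) hf
  rw [Ideal.map_ofList] at h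
  exact h

theorem isFiniteLength_quotient {ϖ : 𝒪} (hϖ : Irreducible ϖ) :
    IsFiniteLength (MvPowerSeries (Fin r) 𝒪)
      (L.N ⧸ (Ideal.ofList ((rs r ϖ).map L.φ) • ⊤ : Submodule (MvPowerSeries (Fin r) 𝒪) L.N)) := by
  haveI := finite_N L
  rw [isFiniteLength_iff_isNoetherian_isArtinian]
  refine ⟨inferInstance, ?_⟩
  letI : Module 𝒪 L.N := Module.compHom L.N (algebraMap 𝒪 (MvPowerSeries (Fin r) 𝒪))
  haveI : IsScalarTower 𝒪 (MvPowerSeries (Fin r) 𝒪) L.N := IsScalarTower.of_algebraMap_smul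
    (fun _ _ => rfl)
  set P : Submodule (MvPowerSeries (Fin r) 𝒪) L.N :=
    Ideal.ofList ((rs r ϖ).map L.φ) • ⊤ with hP
  haveI hmax : (Ideal.span {ϖ}).IsMaximal := by
    rw [← hϖ.maximalIdeal_eq]; infer_instance
  haveI : IsSimpleModule 𝒪 (𝒪 ⧸ Ideal.span {ϖ}) := isSimpleModule_iff_quot_maximal.mpr
    ⟨_, hmax, ⟨LinearEquiv.refl _ _⟩⟩
  haveI : IsArtinian 𝒪 (𝒪 ⧸ Ideal.span {ϖ}) := inferInstance
  haveI : IsArtinian 𝒪 (Fin L.d → 𝒪 ⧸ Ideal.span {ϖ}) := inferInstance
  have hkill : ∀ x : L.N ⧸ P, ϖ • x = 0 := by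
    intro x
    obtain ⟨x, rfl⟩ := Submodule.Quotient.mk_surjective _ x
    rw [← Submodule.Quotient.mk_smul, Submodule.Quotient.mk_eq_zero, ← algebraMap_smul
      (MvPowerSeries (Fin r) 𝒪) ϖ x]
    refine Submodule.smul_mem_smul ?_ Submodule.mem_top
    have h : algebraMap 𝒪 (MvPowerSeries (Fin r) 𝒪) ϖ = L.φ (algebraMap 𝒪 _ ϖ) :=
      (L.φ.commutes ϖ).symm
    rw [h]
    refine φ_mem_of_mem L ?_
    rw [mem_ofList_rs_iff, MvPowerSeries.algebraMap_apply, MvPowerSeries.constantCoeff_C]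
    exact Ideal.mem_span_singleton_self _
  let g : Fin L.d → (𝒪 ⧸ Ideal.span {ϖ}) →ₗ[𝒪] (L.N ⧸ P) := fun i =>
    Submodule.liftQ (Ideal.span {ϖ}) (LinearMap.toSpanSingleton 𝒪 (L.N ⧸ P) (Submodule.Quotient.mk (L.b i)))
      (by
        rw [Ideal.span_le, Set.singleton_subset_iff]
        simp only [SetLike.mem_coe, LinearMap.mem_ker, LinearMap.toSpanSingleton_apply]
        exact hkill _)
  let f : (Fin L.d → 𝒪 ⧸ Ideal.span {ϖ}) →ₗ[𝒪] (L.N ⧸ P) :=
    ∑ i, (g i).comp (LinearMap.proj i)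
  have hf : Function.Surjective f := by
    intro x
    obtain ⟨x, rfl⟩ := Submodule.Quotient.mk_surjective _ x
    obtain ⟨c, rfl⟩ := L.b_span x
    refine ⟨fun i => Ideal.Quotient.mk _ (MvPowerSeries.constantCoeff (c i)), ?_⟩
    simp only [f, LinearMap.sum_apply, LinearMap.comp_apply, LinearMap.proj_apply]
    have h1 : ∀ i, g i (Ideal.Quotient.mk _ (MvPowerSeries.constantCoeff (c i))) =
        Submodule.Quotient.mk (MvPowerSeries.constantCoeff (c i) • L.b i) := by
      intro i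
      rw [Submodule.Quotient.mk_smul]
      exact Submodule.liftQ_apply _ _ _
    rw [Finset.sum_congr rfl fun i _ => h1 i]
    have h2 : ∀ (s : Finset (Fin L.d)) (u : Fin L.d → L.N),
        ∑ i ∈ s, (Submodule.Quotient.mk (u i) : L.N ⧸ P) = Submodule.Quotient.mk (∑ i ∈ s, u i) := by
      intro s u
      exact (map_sum P.mkQ u s).symm
    rw [h2, Submodule.Quotient.eq, ← Finset.sum_sub_distrib]
    refine Submodule.sum_mem _ fun i _ => ?_
    rw [← algebraMap_smul (MvPowerSeries (Fin r) 𝒪), ← sub_smul, ← L.φ.commutes, ← map_sub]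
    refine Submodule.smul_mem_smul (φ_mem_of_mem L ?_) Submodule.mem_top
    rw [mem_ofList_rs_iff, map_sub, MvPowerSeries.algebraMap_apply, MvPowerSeries.constantCoeff_C]
    simp
  haveI : IsArtinian 𝒪 (L.N ⧸ P) := isArtinian_of_surjective _ f hf
  exact isArtinian_of_tower 𝒪 this

end

theorem result
    {𝒪 : Type} [CommRing 𝒪] [IsDomain 𝒪] [IsDiscreteValuationRing 𝒪]
    {r : ℕ} {R : Type} [CommRing R] [Algebra 𝒪 R]
    {M : Type} [AddCommGroup M] [Module R M] [Nontrivial M]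
    (L : Algebra.PatchingLevel 𝒪 r R M ⊥) :
    Module.Free R M ∧ Module.annihilator R M = ⊥ ∧
      RingHom.ker L.ψ = Ideal.span (Set.range fun i : Fin r => L.φ (MvPowerSeries.X i)) := by
  classical
  haveI := finite_N L
  haveI : Nontrivial L.N := L.π_surjective.nontrivial
  haveI : Nontrivial R := Module.nontrivial R M
  obtain ⟨ϖ, hϖ⟩ := IsDiscreteValuationRing.exists_irreducible 𝒪
  have hmax : maximalIdeal 𝒪 = Ideal.span {ϖ} := hϖ.maximalIdeal_eq
  have hmem : ∀ x ∈ (rs r ϖ).map L.φ, x ∈ maximalIdeal (MvPowerSeries (Fin r) 𝒪) := by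
    intro x hx
    obtain ⟨y, hy, rfl⟩ := List.mem_map.mp hx
    rw [rs, List.mem_append] at hy
    rcases hy with hy | hy
    · obtain ⟨i, -, rfl⟩ := List.mem_map.mp hy
      rw [IsLocalRing.mem_maximalIdeal, mem_nonunits_iff]
      intro hu
      have := hu.map L.ψ
      rw [L.ψ_φ_X i] at this
      exact not_isUnit_zero this
    · rw [List.mem_singleton] at hy
      subst hy
      rw [L.φ.commutes]
      exact mem_maximalIdeal_of_mem_rs hmax (by simp [rs])
  have hfree : Module.Free (MvPowerSeries (Fin r) 𝒪) L.N :=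
    free_of_isWeaklyRegular ((rs r ϖ).map L.φ) (by rw [List.length_map, length_rs])
      (isWeaklyRegular_N L hϖ.ne_zero) hmem (isFiniteLength_quotient L hϖ)
  set I : Ideal (MvPowerSeries (Fin r) 𝒪) :=
    Ideal.span (Set.range fun i : Fin r => L.φ (MvPowerSeries.X i)) with hI
  let β := Module.Free.chooseBasis (MvPowerSeries (Fin r) 𝒪) L.N
  have hcoord : ∀ x ∈ (I • ⊤ : Submodule (MvPowerSeries (Fin r) 𝒪) L.N), ∀ j, β.repr x j ∈ I := by
    intro x hx j
    refine Submodule.smul_induction_on hx ?_ ?_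
    · intro a ha n _
      rw [map_smul, Finsupp.smul_apply, smul_eq_mul]
      exact Ideal.mul_mem_right _ _ ha
    · intro x y hx hy
      rw [map_add, Finsupp.add_apply]
      exact Ideal.add_mem _ hx hy
  have hker : RingHom.ker L.ψ = I := by
    apply le_antisymm
    · intro s hs
      obtain ⟨j⟩ := β.index_nonempty
      have h1 : L.π (s • β j) = 0 := by
        rw [L.π_smul, RingHom.mem_ker.mp hs, zero_smul]
      have h2 := hcoord _ ((L.ker_π _).mp h1) j
      simpa using h2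
    · rw [hI, Ideal.span_le]
      rintro _ ⟨i, rfl⟩
      exact L.ψ_φ_X i
  have hli : LinearIndependent R (fun j => L.π (β j)) := by
    rw [linearIndependent_iff']
    intro s g hg j hj
    choose g' hg' using fun j => L.ψ_surjective (g j)
    have h1 : L.π (∑ j ∈ s, g' j • β j) = 0 := by
      rw [map_sum, ← hg]
      refine Finset.sum_congr rfl fun j _ => ?_
      rw [L.π_smul, hg']
    have h2 := hcoord _ ((L.ker_π _).mp h1) j
    rw [map_sum, Finsupp.finsetSum_apply] at h2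
    have h3 : ∑ x ∈ s, (β.repr (g' x • β x)) j = g' j := by
      rw [Finset.sum_eq_single j]
      · simp
      · intro b _ hb
        simp [hb]
      · intro h; exact absurd hj h
    rw [h3, ← hker, RingHom.mem_ker] at h2
    rw [← hg' j]
    exact h2
  have hspan : ⊤ ≤ Submodule.span R (Set.range fun j => L.π (β j)) := by
    intro m _
    obtain ⟨x, rfl⟩ := L.π_surjective m
    rw [← β.linearCombination_repr x, Finsupp.linearCombination_apply, Finsupp.sum, map_sum]
    refine Submodule.sum_mem _ fun j _ => ?_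
    rw [L.π_smul]
    exact Submodule.smul_mem _ _ (Submodule.subset_span ⟨j, rfl⟩)
  let γ := Module.Basis.mk hli hspan
  refine ⟨Module.Free.of_basis γ, ?_, hker⟩
  rw [_root_.eq_bot_iff]
  intro a ha
  obtain ⟨j⟩ := γ.index_nonempty
  have h1 : a • γ j = 0 := Module.mem_annihilator.mp ha _
  have h2 := congrArg (fun m => γ.repr m j) h1
  simpa using h2

end Fermat.Agent.S57
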