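import Fermat.Statements.S59
import Fermat.Agent.WM.Fin
import Fermat.Agent.CoreW.URelP
import Fermat.Agent.AsmX.StepIII
import Fermat.Agent.TyC.Main

set_option autoImplicit false
set_option autoImplicit false
open scoped WeierstrassCurve.Affine
open WeierstrassCurve

namespace Fermat.Agent.S59

theorem result (p : ℕ) (hp : p = 3 ∨ p = 5)
    (W : WeierstrassCurve ℤ) (hΔ : W.Δ ≠ 0) (hW : W.IsSemistableModel) (hirr : W.ModRepIsIrreducible p)
    (M₀ : ℕ) [NeZero M₀] (hres₀ : W.IsResiduallyModularOfLevel p M₀)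
    (hM₀ : ¬ p ^ 2 ∣ M₀)
    (hM₀3 : ∀ q : ℕ, q.Prime → q ≠ p → ¬ q ^ 3 ∣ M₀) :
    Mlc1IsModularModelOfExactConductorLevel W := by
  haveI : Fact p.Prime := ⟨by rcases hp with h | h <;> rw [h] <;> norm_num⟩
  have hp2 : p ≠ 2 := by rcases hp with h | h <;> omega
  exact Fermat.Agent.WM.fin hp hΔ hW hirr (Fermat.Agent.TyC.tch hΔ hW hp2 hirr)
    (fun h => Fermat.Agent.CoreW.uOne_W hΔ hW hp2 h)
    (fun h => Fermat.Agent.AsmX.stepIII hΔ hW hp2 hirr h
      (Fermat.Agent.CoreW.uRelLev hΔ hW hp2 h)) M₀ hres₀ hM₀ hM₀3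

end Fermat.Agent.S59
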